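/-
S56 / Program G, LOC-flat ORD case (ORD-MAIN, helper19), file 1: coordinates on the Borel
subalgebra `span{E, H} ⊂ ad⁰ ρbar` attached to a basis `B₀`, and the adjoint action of an element
which is upper triangular in that basis.

`E = B₀ E₁₂ B₀⁻¹` (`Ord.ordE`), `H = B₀ diag(1,-1) B₀⁻¹` (`Ord.ordH`), `T σ = B₀⁻¹ ρbar(σ) B₀`.
If `T σ` is upper triangular then `σ E = χ(σ) E`, `σ H = H + β(σ) E` with `χ = T₀₀/T₁₁`,
`β = -2 T₀₁/T₁₁`; `Eco`, `Hco : ad⁰ ρbar → k` are the coordinate functionals.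
-/
import Mathlib
import Fermat.Agent.TW.Ord.Inst

set_option autoImplicit false
set_option linter.unusedSectionVars false
set_option linter.style.haveILetI false

namespace Fermat.Agent.TW.LocFlat.Ord

open Matrix Module
open Fermat.Agent.TW.Ord Fermat.Agent.TW.Sel Fermat.Agent.S53 Fermat.Agent.TW.Ad0

local notation "M2" => Matrix (Fin 2) (Fin 2)
local notation "GQ" => (AlgebraicClosure ℚ ≃ₐ[ℚ] AlgebraicClosure ℚ)

variable {k : Type} [Field k]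

/-! ### Matrix computations -/

section Mat

variable (B₀ : (M2 k)ˣ)

/-- `B₀⁻¹ (B₀ X B₀⁻¹) B₀ = X`. -/
theorem inv_mul_cj_mul (X : M2 k) :
    ((B₀⁻¹ : (M2 k)ˣ) : M2 k) * cj B₀ X * (B₀ : M2 k) = X := by
  have hU' : ((B₀⁻¹ : (M2 k)ˣ) : M2 k) * (B₀ : M2 k) = 1 := Units.inv_mul B₀
  calc ((B₀⁻¹ : (M2 k)ˣ) : M2 k) * ((B₀ : M2 k) * X * ((B₀⁻¹ : (M2 k)ˣ) : M2 k)) * (B₀ : M2 k)
      = (((B₀⁻¹ : (M2 k)ˣ) : M2 k) * (B₀ : M2 k)) * X
        * (((B₀⁻¹ : (M2 k)ˣ) : M2 k) * (B₀ : M2 k)) := by simp only [mul_assoc]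
    _ = X := by rw [hU', one_mul, mul_one]

/-- The `(1,1)` entry of an invertible upper triangular conjugate is nonzero. -/
theorem conj_apply_one_one_ne_zero {M M' : M2 k} (hMM' : M * M' = 1)
    (h10 : (((B₀⁻¹ : (M2 k)ˣ) : M2 k) * M * (B₀ : M2 k)) 1 0 = 0) :
    (((B₀⁻¹ : (M2 k)ˣ) : M2 k) * M * (B₀ : M2 k)) 1 1 ≠ 0 := by
  have hU : (B₀ : M2 k) * ((B₀⁻¹ : (M2 k)ˣ) : M2 k) = 1 := Units.mul_inv B₀
  have hU' : ((B₀⁻¹ : (M2 k)ˣ) : M2 k) * (B₀ : M2 k) = 1 := Units.inv_mul B₀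
  have hTT' : (((B₀⁻¹ : (M2 k)ˣ) : M2 k) * M * (B₀ : M2 k))
      * (((B₀⁻¹ : (M2 k)ˣ) : M2 k) * M' * (B₀ : M2 k)) = 1 := by
    calc (((B₀⁻¹ : (M2 k)ˣ) : M2 k) * M * (B₀ : M2 k))
          * (((B₀⁻¹ : (M2 k)ˣ) : M2 k) * M' * (B₀ : M2 k))
        = ((B₀⁻¹ : (M2 k)ˣ) : M2 k) * M * ((B₀ : M2 k) * ((B₀⁻¹ : (M2 k)ˣ) : M2 k)) * M'
          * (B₀ : M2 k) := by simp only [mul_assoc]
      _ = ((B₀⁻¹ : (M2 k)ˣ) : M2 k) * (M * M') * (B₀ : M2 k) := by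
          rw [hU, mul_one]; simp only [mul_assoc]
      _ = 1 := by rw [hMM', mul_one, hU']
  generalize ((B₀⁻¹ : (M2 k)ˣ) : M2 k) * M * (B₀ : M2 k) = T at h10 hTT'
  generalize ((B₀⁻¹ : (M2 k)ˣ) : M2 k) * M' * (B₀ : M2 k) = T' at hTT'
  have h := congrFun (congrFun hTT' 1) 1
  rw [Matrix.mul_apply, Fin.sum_univ_two, h10, zero_mul, zero_add, Matrix.one_apply_eq] at h
  intro h0
  rw [h0, zero_mul] at h
  exact zero_ne_one h

/-- Conjugation of the nilpotent line by an upper triangular element: the character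
`T₀₀ / T₁₁`. -/
theorem conj_cj_e12_div {M M' : M2 k} (hMM' : M * M' = 1) (t : k)
    (h10 : (((B₀⁻¹ : (M2 k)ˣ) : M2 k) * M * (B₀ : M2 k)) 1 0 = 0) :
    M * cj B₀ (e12 t) * M' = cj B₀ (e12 ((((B₀⁻¹ : (M2 k)ˣ) : M2 k) * M * (B₀ : M2 k)) 0 0
      / (((B₀⁻¹ : (M2 k)ˣ) : M2 k) * M * (B₀ : M2 k)) 1 1 * t)) := by
  have h11 := conj_apply_one_one_ne_zero B₀ hMM' h10
  apply conj_cj_of_comm B₀ hMM'
  generalize ((B₀⁻¹ : (M2 k)ˣ) : M2 k) * M * (B₀ : M2 k) = T at h10 h11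
  ext i j
  fin_cases i <;> fin_cases j <;>
    simp [e12, Matrix.mul_apply, Fin.sum_univ_two, h10]
  field_simp

/-- Conjugation of `diag(1,-1)` by an upper triangular element. -/
theorem conj_cj_dg_div {M M' : M2 k} (hMM' : M * M' = 1)
    (h10 : (((B₀⁻¹ : (M2 k)ˣ) : M2 k) * M * (B₀ : M2 k)) 1 0 = 0) :
    M * cj B₀ dg * M' = cj B₀ (dg + e12 (-2 * (((B₀⁻¹ : (M2 k)ˣ) : M2 k) * M * (B₀ : M2 k)) 0 1
      / (((B₀⁻¹ : (M2 k)ˣ) : M2 k) * M * (B₀ : M2 k)) 1 1)) := by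
  have h11 := conj_apply_one_one_ne_zero B₀ hMM' h10
  apply conj_cj_of_comm B₀ hMM'
  generalize ((B₀⁻¹ : (M2 k)ˣ) : M2 k) * M * (B₀ : M2 k) = T at h10 h11
  ext i j
  fin_cases i <;> fin_cases j <;>
    simp [dg, e12, Matrix.mul_apply, Fin.sum_univ_two, h10]
  field_simp
  ring

end Mat

/-! ### Coordinates on `ad⁰ ρbar` -/

section Coord

variable (ρbar : ResidualGaloisRep k) (B₀ : (M2 k)ˣ)

/-- The matrix of an element of `ad⁰ ρbar` in the basis `B₀`. -/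
noncomputable def coordM : (ad0Rep ρbar) →ₗ[k] M2 k where
  toFun x := ((B₀⁻¹ : (M2 k)ˣ) : M2 k)
    * LinearMap.toMatrix (stdBasis ρbar) (stdBasis ρbar) (ad0ToEnd ρbar x) * (B₀ : M2 k)
  map_add' x y := by rw [map_add, map_add, mul_add, add_mul]
  map_smul' c x := by
    rw [map_smul, map_smul, mul_smul_comm, smul_mul_assoc, RingHom.id_apply]

theorem coordM_apply (x : (ad0Rep ρbar)) : coordM ρbar B₀ x = ((B₀⁻¹ : (M2 k)ˣ) : M2 k)
    * LinearMap.toMatrix (stdBasis ρbar) (stdBasis ρbar) (ad0ToEnd ρbar x) * (B₀ : M2 k) := rfl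

theorem coordM_matAd_cj (X : M2 k) (hX : (cj B₀ X).trace = 0) :
    coordM ρbar B₀ (matAd ρbar (cj B₀ X) hX) = X := by
  rw [coordM_apply, ad0ToEnd_matAd, LinearMap.toMatrix_toLin, inv_mul_cj_mul]

theorem coordM_injective : Function.Injective (coordM ρbar B₀) := by
  intro x y h
  apply ad0ToEnd_injective ρbar
  apply (LinearMap.toMatrix (stdBasis ρbar) (stdBasis ρbar)).injective
  have hU : (B₀ : M2 k) * ((B₀⁻¹ : (M2 k)ˣ) : M2 k) = 1 := Units.mul_inv B₀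
  have key : ∀ Z : M2 k, (B₀ : M2 k) * (((B₀⁻¹ : (M2 k)ˣ) : M2 k) * Z * (B₀ : M2 k))
      * ((B₀⁻¹ : (M2 k)ˣ) : M2 k) = Z := by
    intro Z
    calc (B₀ : M2 k) * (((B₀⁻¹ : (M2 k)ˣ) : M2 k) * Z * (B₀ : M2 k)) * ((B₀⁻¹ : (M2 k)ˣ) : M2 k)
        = ((B₀ : M2 k) * ((B₀⁻¹ : (M2 k)ˣ) : M2 k)) * Z
          * ((B₀ : M2 k) * ((B₀⁻¹ : (M2 k)ˣ) : M2 k)) := by simp only [mul_assoc]
      _ = Z := by rw [hU, one_mul, mul_one]
  rw [coordM_apply, coordM_apply] at h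
  rw [← key (LinearMap.toMatrix (stdBasis ρbar) (stdBasis ρbar) (ad0ToEnd ρbar x)), h, key]

/-- The `E`-coordinate. -/
noncomputable def Eco : (ad0Rep ρbar) →ₗ[k] k :=
  (Matrix.entryLinearMap k k (0 : Fin 2) (1 : Fin 2)).comp (coordM ρbar B₀)

/-- The `H`-coordinate. -/
noncomputable def Hco : (ad0Rep ρbar) →ₗ[k] k :=
  (Matrix.entryLinearMap k k (0 : Fin 2) (0 : Fin 2)).comp (coordM ρbar B₀)

theorem Eco_apply (x : (ad0Rep ρbar)) : Eco ρbar B₀ x = coordM ρbar B₀ x 0 1 := rfl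

theorem Hco_apply (x : (ad0Rep ρbar)) : Hco ρbar B₀ x = coordM ρbar B₀ x 0 0 := rfl

theorem coordM_ordE : coordM ρbar B₀ (ordE ρbar B₀) = e12 1 := coordM_matAd_cj ρbar B₀ _ _

theorem coordM_ordH : coordM ρbar B₀ (ordH ρbar B₀) = dg := coordM_matAd_cj ρbar B₀ _ _

@[simp] theorem Eco_ordE : Eco ρbar B₀ (ordE ρbar B₀) = 1 := by
  rw [Eco_apply, coordM_ordE]; simp [e12]

@[simp] theorem Hco_ordE : Hco ρbar B₀ (ordE ρbar B₀) = 0 := by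
  rw [Hco_apply, coordM_ordE]; simp [e12]

@[simp] theorem Eco_ordH : Eco ρbar B₀ (ordH ρbar B₀) = 0 := by
  rw [Eco_apply, coordM_ordH]; simp [dg]

@[simp] theorem Hco_ordH : Hco ρbar B₀ (ordH ρbar B₀) = 1 := by
  rw [Hco_apply, coordM_ordH]; simp [dg]

/-- The Borel subalgebra `span{E, H}`. -/
noncomputable def borB : Submodule k (ad0Rep ρbar) where
  carrier := {x | x = Eco ρbar B₀ x • ordE ρbar B₀ + Hco ρbar B₀ x • ordH ρbar B₀}
  add_mem' := by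
    intro x y hx hy
    show x + y = _
    rw [map_add, map_add, add_smul, add_smul]
    conv_lhs => rw [hx, hy]
    abel
  zero_mem' := by
    show (0 : (ad0Rep ρbar)) = _
    rw [map_zero, map_zero, zero_smul, zero_smul, add_zero]
  smul_mem' := by
    intro c x hx
    show c • x = _
    rw [map_smul, map_smul, smul_eq_mul, smul_eq_mul, mul_smul, mul_smul, ← smul_add, ← hx]

theorem mem_borB_iff (x : (ad0Rep ρbar)) :
    x ∈ borB ρbar B₀ ↔ x = Eco ρbar B₀ x • ordE ρbar B₀ + Hco ρbar B₀ x • ordH ρbar B₀ := Iff.rfl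

theorem smul_add_smul_mem_borB (f u : k) :
    f • ordE ρbar B₀ + u • ordH ρbar B₀ ∈ borB ρbar B₀ := by
  rw [mem_borB_iff]
  simp

theorem ordE_mem_borB : ordE ρbar B₀ ∈ borB ρbar B₀ := by
  have := smul_add_smul_mem_borB ρbar B₀ 1 0
  rwa [one_smul, zero_smul, add_zero] at this

theorem ordH_mem_borB : ordH ρbar B₀ ∈ borB ρbar B₀ := by
  have := smul_add_smul_mem_borB ρbar B₀ 0 1
  rwa [one_smul, zero_smul, zero_add] at this

/-- `matAd` of `B₀ (e12 f + u • dg) B₀⁻¹` in the coordinates. -/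
theorem matAd_cj_eq (f u : k) (hX : (cj B₀ (e12 f + u • dg)).trace = 0) :
    matAd ρbar (cj B₀ (e12 f + u • dg)) hX = f • ordE ρbar B₀ + u • ordH ρbar B₀ := by
  apply ad0_ext
  rw [map_add, map_smul, map_smul, ordE, ordH, ad0ToEnd_matAd, ad0ToEnd_matAd, ad0ToEnd_matAd,
    ← map_smul, ← map_smul, ← map_add, ← cj_smul, ← cj_smul, ← cj_add, e12_smul, mul_one]

/-- An element of the Borel subalgebra with vanishing `H`-coordinate lies on the line `k E`. -/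
theorem mem_span_ordE_of_Hco_eq_zero {x : (ad0Rep ρbar)} (hx : x ∈ borB ρbar B₀)
    (h0 : Hco ρbar B₀ x = 0) : x ∈ Submodule.span k {ordE ρbar B₀} := by
  rw [mem_borB_iff, h0, zero_smul, add_zero] at hx
  rw [hx]
  exact Submodule.smul_mem _ _ (Submodule.subset_span rfl)

theorem ordH_notMem_span_ordE : ordH ρbar B₀ ∉ Submodule.span k {ordE ρbar B₀} := by
  intro h
  obtain ⟨t, ht⟩ := Submodule.mem_span_singleton.mp h
  exact ordH_ne_smul ρbar B₀ t ht.symm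

end Coord

/-! ### The action of an upper triangular element -/

section Action

variable (ρbar : ResidualGaloisRep k) (B₀ : (M2 k)ˣ)

/-- `T σ = B₀⁻¹ ρbar(σ) B₀`. -/
noncomputable def tMat (σ : GQ) : M2 k :=
  ((B₀⁻¹ : (M2 k)ˣ) : M2 k) * stdMat ρbar σ * (B₀ : M2 k)

/-- The character of the adjoint action on the line `k E`. -/
noncomputable def chiT (σ : GQ) : k := tMat ρbar B₀ σ 0 0 / tMat ρbar B₀ σ 1 1

/-- The extension class of `H` modulo `E`. -/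
noncomputable def betaT (σ : GQ) : k := -2 * tMat ρbar B₀ σ 0 1 / tMat ρbar B₀ σ 1 1

variable {ρbar B₀}

theorem ρ_ordE_of_upper {σ : GQ} (h10 : tMat ρbar B₀ σ 1 0 = 0) :
    (ad0Rep ρbar).ρ σ (ordE ρbar B₀) = chiT ρbar B₀ σ • ordE ρbar B₀ := by
  apply ad0_ext
  have hMM' : stdMat ρbar σ * stdMat ρbar σ⁻¹ = 1 := (stdMat ρbar).apply_mul_inv σ
  rw [ordE, ad0ToEnd_ρ_matAd, map_smul, ad0ToEnd_matAd, ← map_smul,
    conj_cj_e12_div B₀ hMM' 1 h10, ← cj_smul, e12_smul, mul_one, mul_one]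
  rfl

theorem ρ_ordH_of_upper {σ : GQ} (h10 : tMat ρbar B₀ σ 1 0 = 0) :
    (ad0Rep ρbar).ρ σ (ordH ρbar B₀) = ordH ρbar B₀ + betaT ρbar B₀ σ • ordE ρbar B₀ := by
  apply ad0_ext
  have hMM' : stdMat ρbar σ * stdMat ρbar σ⁻¹ = 1 := (stdMat ρbar).apply_mul_inv σ
  rw [ordH, ad0ToEnd_ρ_matAd, map_add, map_smul, ordE, ad0ToEnd_matAd, ad0ToEnd_matAd,
    ← map_smul, ← map_add, conj_cj_dg_div B₀ hMM' h10, cj_add, ← cj_smul, e12_smul, mul_one]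
  rfl

/-- The action of an upper triangular element on the Borel subalgebra, in coordinates. -/
theorem ρ_of_mem_borB {σ : GQ} (h10 : tMat ρbar B₀ σ 1 0 = 0) {x : (ad0Rep ρbar)}
    (hx : x ∈ borB ρbar B₀) :
    (ad0Rep ρbar).ρ σ x = (chiT ρbar B₀ σ * Eco ρbar B₀ x + betaT ρbar B₀ σ * Hco ρbar B₀ x)
      • ordE ρbar B₀ + Hco ρbar B₀ x • ordH ρbar B₀ := by
  conv_lhs => rw [(mem_borB_iff ρbar B₀ x).mp hx]
  rw [map_add, map_smul, map_smul, ρ_ordE_of_upper h10, ρ_ordH_of_upper h10, smul_add, smul_smul,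
    smul_smul, add_smul]
  rw [mul_comm (Eco ρbar B₀ x), mul_comm (Hco ρbar B₀ x)]
  abel

theorem ρ_mem_borB {σ : GQ} (h10 : tMat ρbar B₀ σ 1 0 = 0) {x : (ad0Rep ρbar)}
    (hx : x ∈ borB ρbar B₀) : (ad0Rep ρbar).ρ σ x ∈ borB ρbar B₀ := by
  rw [ρ_of_mem_borB h10 hx]
  exact smul_add_smul_mem_borB ρbar B₀ _ _

theorem Hco_ρ {σ : GQ} (h10 : tMat ρbar B₀ σ 1 0 = 0) {x : (ad0Rep ρbar)}
    (hx : x ∈ borB ρbar B₀) : Hco ρbar B₀ ((ad0Rep ρbar).ρ σ x) = Hco ρbar B₀ x := by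
  rw [ρ_of_mem_borB h10 hx]
  simp

theorem Eco_ρ {σ : GQ} (h10 : tMat ρbar B₀ σ 1 0 = 0) {x : (ad0Rep ρbar)}
    (hx : x ∈ borB ρbar B₀) : Eco ρbar B₀ ((ad0Rep ρbar).ρ σ x)
      = chiT ρbar B₀ σ * Eco ρbar B₀ x + betaT ρbar B₀ σ * Hco ρbar B₀ x := by
  rw [ρ_of_mem_borB h10 hx]
  simp

end Action

end Fermat.Agent.TW.LocFlat.Ord
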