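import Mathlib
import Fermat.Agent.TW.LocFlat.Ord.Coord
import Fermat.Agent.TW.LocFlat.OrdContracts

/-!
# S56 / LOC-flat, ORD case (ORD-MAIN cut (A), helper5 for helper19): `β` is allowed

`betaT ρbar B₀ σ = -2 T₀₁(σ) / T₁₁(σ)`, `T σ = B₀⁻¹ ρbar(σ) B₀`, vanishes wherever `ρbar` is trivial,
a fortiori wherever a lift `r` of `ρbar` to `k[ε]` is trivial; if `r` is flat with cyclotomic
determinant, `allowedAt_of_vanish` applies.
-/

set_option autoImplicit false
set_option linter.unusedSectionVars false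

namespace Fermat.Agent.TW.LocFlat.Ord

open Matrix
open Fermat.Agent.TW.Ord Fermat.Agent.TW.Sel Fermat.Agent.S53 Fermat.Agent.TW.Ad0
open Fermat.Agent.TW.LocFlat Fermat.Agent.TW.Ram

local notation "M2" => Matrix (Fin 2) (Fin 2)
local notation "Qb" => AlgebraicClosure ℚ
local notation "GQ" => (AlgebraicClosure ℚ ≃ₐ[ℚ] AlgebraicClosure ℚ)

variable {k : Type} [Field k]

/-- `T σ = 1` where `ρbar σ` (in its standard matrix form) is trivial. -/
theorem tMat_eq_one_of_stdMat_eq_one (ρbar : ResidualGaloisRep k) (B₀ : (M2 k)ˣ) {σ : GQ}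
    (h : stdMat ρbar σ = 1) : tMat ρbar B₀ σ = 1 := by
  rw [tMat, h, mul_one, Units.inv_mul]

/-- `β σ = 0` where `ρbar σ` is trivial. -/
theorem betaT_eq_zero_of_stdMat_eq_one (ρbar : ResidualGaloisRep k) (B₀ : (M2 k)ˣ) {σ : GQ}
    (h : stdMat ρbar σ = 1) : betaT ρbar B₀ σ = 0 := by
  rw [betaT, tMat_eq_one_of_stdMat_eq_one ρbar B₀ h]
  simp

/-- `χ σ = 1` where `ρbar σ` is trivial. -/
theorem chiT_eq_one_of_stdMat_eq_one (ρbar : ResidualGaloisRep k) (B₀ : (M2 k)ˣ) {σ : GQ}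
    (h : stdMat ρbar σ = 1) : chiT ρbar B₀ σ = 1 := by
  rw [chiT, tMat_eq_one_of_stdMat_eq_one ρbar B₀ h]
  simp

/-- The reduction of a lift is trivial where the lift is. -/
theorem stdMat_eq_one_of_lift_eq_one (ρbar : ResidualGaloisRep k) (r : MatRep (DualNumber k))
    (hred : ∀ σ, redHom r.toHom σ = stdMat ρbar σ) {σ : GQ} (h : r σ = 1) :
    stdMat ρbar σ = 1 := by
  rw [← hred σ, redHom_apply]
  have h' : r.toHom σ = 1 := h
  rw [h', mfst_one]

section Local

variable (p : ℕ) [hp : Fact p.Prime]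

local notation "Ωp" => PadicAlgCl p
local notation "Gp" => (PadicAlgCl p ≃ₐ[ℚ_[p]] PadicAlgCl p)

/-- **Cut (A)**: the extension class `β` of `H` modulo `E` is `AllowedAt` every field containing
`ζ_p`, given ONE flat lift of `ρbar` with cyclotomic determinant. -/
theorem allowedAt_betaT [CharP k p] [Finite k] (hA5 : A5FieldOut p)
    (F : IntermediateField ℚ_[p] Ωp) (ζp : Ωp) (hζp : IsPrimitiveRoot ζp p) (hζF : ζp ∈ F)
    (ρbar : ResidualGaloisRep k) (B₀ : (M2 k)ˣ) (r : MatRep (DualNumber k))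
    (hred : ∀ σ, redHom r.toHom σ = stdMat ρbar σ)
    (hflat : r.toAdic.IsFlatAt p) (hdet : r.toAdic.DetIsCyclotomic p) :
    AllowedAt p F ζp (fun g : Gp => betaT ρbar B₀ (localGaloisToGlobal p g)) :=
  allowedAt_of_vanish p hA5 F ζp hζp hζF r hflat hdet _ (fun _ hσ =>
    betaT_eq_zero_of_stdMat_eq_one ρbar B₀ (stdMat_eq_one_of_lift_eq_one ρbar r hred hσ))

end Local

end Fermat.Agent.TW.LocFlat.Ord
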