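/-
S56 / Program G, LOC-flat ORD case (ORD-MAIN, helper19), file 2: the diagonal characters of
`ρbar|G_p` in a basis `B₀` in which `ρbar|G_p` is upper triangular.

`Gp = Gal(ℚ̄_p/ℚ_p)`, `ι = localGaloisToGlobal p`, `T g = B₀⁻¹ ρbar(ι g) B₀`.
* `diagHom i : Gp →* kˣ` (`i`-th diagonal entry), `chiHom = diagHom 0 / diagHom 1` (the character of
  the adjoint action on `k E`), `omegaK : Gp →* kˣ` the mod `p` cyclotomic character;
* all are level-constant (`isLC₁_*`).
-/
import Mathlib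
import Fermat.Agent.TW.LocFlat.Ord.Coord
import Fermat.Agent.S55.LCBridgeLocal

set_option autoImplicit false
set_option linter.unusedSectionVars false
set_option linter.style.haveILetI false

namespace Fermat.Agent.TW.LocFlat.Ord

open Matrix Module
open Fermat.Agent.TW.Ord Fermat.Agent.TW.Sel Fermat.Agent.S53 Fermat.Agent.TW.Ad0
open Fermat.Agent.CFT Fermat.Agent.S55

local notation "M2" => Matrix (Fin 2) (Fin 2)
local notation "Qb" => AlgebraicClosure ℚ
local notation "GQ" => (AlgebraicClosure ℚ ≃ₐ[ℚ] AlgebraicClosure ℚ)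

variable {k : Type} [Field k] (ρbar : ResidualGaloisRep k) (B₀ : (M2 k)ˣ)

theorem tMat_one : tMat ρbar B₀ 1 = 1 := by
  rw [tMat, (stdMat ρbar).apply_one, mul_one, Units.inv_mul]

theorem tMat_mul (σ τ : GQ) : tMat ρbar B₀ (σ * τ) = tMat ρbar B₀ σ * tMat ρbar B₀ τ := by
  have hU : (B₀ : M2 k) * ((B₀⁻¹ : (M2 k)ˣ) : M2 k) = 1 := Units.mul_inv B₀
  rw [tMat, tMat, tMat, (stdMat ρbar).apply_mul]
  calc ((B₀⁻¹ : (M2 k)ˣ) : M2 k) * (stdMat ρbar σ * stdMat ρbar τ) * (B₀ : M2 k)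
      = ((B₀⁻¹ : (M2 k)ˣ) : M2 k) * stdMat ρbar σ * 1 * stdMat ρbar τ * (B₀ : M2 k) := by
        rw [mul_one]; simp only [mul_assoc]
    _ = _ := by rw [← hU]; simp only [mul_assoc]

/-- The values of `ρbar` are trivial on a finite level. -/
theorem exists_level_stdMat : ∃ L₀ : IntermediateField ℚ Qb, FiniteDimensional ℚ L₀ ∧
    ∀ σ s : GQ, s ∈ L₀.fixingSubgroup → stdMat ρbar (σ * s) = stdMat ρbar σ := by
  obtain ⟨L₀, hfd, h⟩ := ρbar.factorsThroughFiniteLevel
  refine ⟨L₀, hfd, fun σ s hs => ?_⟩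
  have h1 : ρbar.ρ s = 1 :=
    h s (fun x hx => (IntermediateField.mem_fixingSubgroup_iff _ _).mp hs x hx)
  rw [(stdMat ρbar).apply_mul, stdMat_apply ρbar s, h1]
  have : LinearMap.toMatrix (stdBasis ρbar) (stdBasis ρbar) (1 : Module.End k ρbar.V) = 1 :=
    LinearMap.toMatrix_one _
  rw [this, mul_one]

section Local

variable (p : ℕ) [hp : Fact p.Prime]

local notation "Gp" => (PadicAlgCl p ≃ₐ[ℚ_[p]] PadicAlgCl p)

/-- Any function of `ρbar (ι g)` is level-constant on `Gp`. -/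
theorem isLC₁_of_stdMat {X : Type*} (φ : M2 k → X) :
    (levelOf (localGaloisToGlobal p)).IsLC₁
      (fun g : Gp => φ (stdMat ρbar (localGaloisToGlobal p g))) := by
  obtain ⟨L₀, hfd, h⟩ := exists_level_stdMat ρbar
  refine (isLevelConstant₁_iff (localGaloisToGlobal p) _).mp ⟨L₀, hfd, fun g s hs => ?_⟩
  show φ (stdMat ρbar (localGaloisToGlobal p (g * s))) = φ (stdMat ρbar (localGaloisToGlobal p g))
  rw [map_mul, h _ _ hs]

variable {ρbar B₀ p}

/-- The diagonal entries of an upper triangular `T` are multiplicative. -/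
theorem tMat_diag_mul (hup : ∀ g : Gp, tMat ρbar B₀ (localGaloisToGlobal p g) 1 0 = 0)
    (i : Fin 2) (g h : Gp) :
    tMat ρbar B₀ (localGaloisToGlobal p (g * h)) i i
      = tMat ρbar B₀ (localGaloisToGlobal p g) i i * tMat ρbar B₀ (localGaloisToGlobal p h) i i := by
  rw [map_mul, tMat_mul, Matrix.mul_apply, Fin.sum_univ_two]
  fin_cases i
  · show _ * _ + _ * tMat ρbar B₀ (localGaloisToGlobal p h) 1 0 = _
    rw [hup h, mul_zero, add_zero]
    rfl
  · show tMat ρbar B₀ (localGaloisToGlobal p g) 1 0 * _ + _ = _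
    rw [hup g, zero_mul, zero_add]
    rfl

variable (ρbar B₀ p)

/-- The `i`-th diagonal entry as a monoid homomorphism to `k`. -/
noncomputable def diagHom₀ (hup : ∀ g : Gp, tMat ρbar B₀ (localGaloisToGlobal p g) 1 0 = 0)
    (i : Fin 2) : Gp →* k where
  toFun g := tMat ρbar B₀ (localGaloisToGlobal p g) i i
  map_one' := by rw [map_one, tMat_one, Matrix.one_apply_eq]
  map_mul' := tMat_diag_mul hup i

/-- The `i`-th diagonal character `Gp →* kˣ`. -/
noncomputable def diagHom (hup : ∀ g : Gp, tMat ρbar B₀ (localGaloisToGlobal p g) 1 0 = 0)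
    (i : Fin 2) : Gp →* kˣ := (diagHom₀ ρbar B₀ p hup i).toHomUnits

theorem coe_diagHom (hup : ∀ g : Gp, tMat ρbar B₀ (localGaloisToGlobal p g) 1 0 = 0)
    (i : Fin 2) (g : Gp) :
    ((diagHom ρbar B₀ p hup i g : kˣ) : k) = tMat ρbar B₀ (localGaloisToGlobal p g) i i := rfl

/-- The character of the adjoint action on the line `k E`. -/
noncomputable def chiHom (hup : ∀ g : Gp, tMat ρbar B₀ (localGaloisToGlobal p g) 1 0 = 0) :
    Gp →* kˣ := diagHom ρbar B₀ p hup 0 / diagHom ρbar B₀ p hup 1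

theorem coe_chiHom (hup : ∀ g : Gp, tMat ρbar B₀ (localGaloisToGlobal p g) 1 0 = 0) (g : Gp) :
    ((chiHom ρbar B₀ p hup g : kˣ) : k) = chiT ρbar B₀ (localGaloisToGlobal p g) := by
  rw [chiHom, MonoidHom.div_apply, Units.val_div_eq_div_val, coe_diagHom, coe_diagHom]
  rfl

theorem isLC₁_diagHom (hup : ∀ g : Gp, tMat ρbar B₀ (localGaloisToGlobal p g) 1 0 = 0)
    (i : Fin 2) : (levelOf (localGaloisToGlobal p)).IsLC₁ (diagHom ρbar B₀ p hup i) := by
  obtain ⟨N, hN, h⟩ := isLC₁_of_stdMat ρbar p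
    (fun M => (((B₀⁻¹ : (M2 k)ˣ) : M2 k) * M * (B₀ : M2 k)) i i)
  refine ⟨N, hN, fun g s hs => Units.ext ?_⟩
  rw [coe_diagHom, coe_diagHom]
  exact h g s hs

theorem isLC₁_tMat {X : Type*} (φ : M2 k → X) :
    (levelOf (localGaloisToGlobal p)).IsLC₁
      (fun g : Gp => φ (tMat ρbar B₀ (localGaloisToGlobal p g))) :=
  isLC₁_of_stdMat ρbar p (fun M => φ (((B₀⁻¹ : (M2 k)ˣ) : M2 k) * M * (B₀ : M2 k)))

end Local

end Fermat.Agent.TW.LocFlat.Ord
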