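/-
S56 / Program G, LOC-flat ORD case, ORD-MAIN sub-targets (T1), (T2) (helper11, for helper19).

`FlatShape ρbar p B₀` : in the basis `B₀`, `ρbar` is upper triangular on `D_P` (`P = padicPlace p`)
with lower-right entry `1` and upper-left entry the mod `p` cyclotomic character on `I_P`.
* (T1) `exists_flatShape` : one flat lift with cyclotomic determinant of a `ρbar` with a
  `G_p`-stable line gives such a basis (from `TriFlatOut`);
* (T2) `flat_form_fixed_basis` : in a FIXED such basis, the tangent cochain of EVERY flat lift is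
  `cj B₀ (e12 (f σ) + u σ • dg) + ∂m` on `D_P`, `m` of trace zero, `u = 0` on `I_P`.
-/
import Mathlib
import Fermat.Agent.TW.Ord.TriDiag
import Fermat.Agent.TW.Ord.Inst
import Fermat.Agent.TW.LocFlat.OrdContracts
import Fermat.Agent.TW.Loc.LocalSurj
import Fermat.Agent.TW.Hopf.OrdLine

set_option autoImplicit false
set_option linter.unusedSectionVars false
set_option linter.unnecessarySeqFocus false

namespace Fermat.Agent.TW.LocFlat.Ord

open Matrix Fermat.Agent.TW.Sel Fermat.Agent.TW.Ord Fermat.Agent.S53 Fermat.Agent.S55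
  Fermat.Agent.TW.LocFlat

local notation "M2" => Matrix (Fin 2) (Fin 2)
local notation "Qb" => AlgebraicClosure ℚ
local notation "GQ" => (AlgebraicClosure ℚ ≃ₐ[ℚ] AlgebraicClosure ℚ)

variable {k : Type} [Field k] (ρbar : ResidualGaloisRep k) (p : ℕ) [hp : Fact p.Prime]

local notation "Gp" => (PadicAlgCl p ≃ₐ[ℚ_[p]] PadicAlgCl p)

/-- The shape of `ρbar` on the decomposition group at `p` in the basis `B₀` (flat case). -/
def FlatShape (B₀ : (M2 k)ˣ) : Prop :=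
  (∀ σ ∈ (padicPlace p).decompositionSubgroup ℚ,
    (((B₀⁻¹ : (M2 k)ˣ) : M2 k) * stdMat ρbar σ * (B₀ : M2 k)) 1 0 = 0) ∧
  ∀ σ ∈ (padicPlace p).inertiaSubgroupIn ℚ,
    (((B₀⁻¹ : (M2 k)ˣ) : M2 k) * stdMat ρbar σ * (B₀ : M2 k)) 1 1 = 1 ∧
    ∀ a : ℕ, (∀ μ : Qb, μ ^ p = 1 → σ μ = μ ^ a) →
      (((B₀⁻¹ : (M2 k)ˣ) : M2 k) * stdMat ρbar σ * (B₀ : M2 k)) 0 0 = (a : k)

variable {ρbar p}

/-! ### Matrix lemmas -/

section MatrixLemmas

variable {K : Type*} [Field K]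

/-- An intertwiner between two upper triangular matrices with diagonals `(·, 1)` and `(a, ·)`,
`a ≠ 1`, is upper triangular. -/
theorem upper_of_intertwine {Tm Tm' U : M2 K} {a : K} (hU : Tm * U = U * Tm')
    (h10 : Tm 1 0 = 0) (h11 : Tm 1 1 = 1) (h10' : Tm' 1 0 = 0) (h00' : Tm' 0 0 = a)
    (ha1 : a ≠ 1) : U 1 0 = 0 := by
  have h := congrFun (congrFun hU 1) 0
  simp only [Matrix.mul_apply, Fin.sum_univ_two, h10, h11, h10', h00', zero_mul, one_mul,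
    zero_add, mul_zero, add_zero] at h
  have h1 : (1 - a) * U 1 0 = 0 := by linear_combination h
  rcases mul_eq_zero.1 h1 with h2 | h2
  · exact absurd (sub_eq_zero.1 h2).symm ha1
  · exact h2

/-- Conjugating `t E₁₂ + u diag(1,-1)` by an upper triangular matrix. -/
theorem upper_mul_e12_dg (U : M2 K) (h10 : U 1 0 = 0) (hz : U 1 1 ≠ 0) (t u : K) :
    U * (e12 t + u • dg) = (e12 ((U 0 0 * t - 2 * U 0 1 * u) / U 1 1) + u • dg) * U := by
  ext i j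
  fin_cases i <;> fin_cases j <;>
    simp [e12, dg, Matrix.mul_apply, Fin.sum_univ_two, h10]
  · ring
  · field_simp
    ring
  · ring

theorem hdiag_eq_smul_dg (u : K) : hdiag u = u • (dg : M2 K) := by
  ext i j
  fin_cases i <;> fin_cases j <;> simp [hdiag, dg]

/-- `cj (B₀ U) X = cj B₀ Y` when `U X = Y U`. -/
theorem cj_mul_of_comm (B₀ U : (M2 K)ˣ) {X Y : M2 K} (h : (U : M2 K) * X = Y * (U : M2 K)) :
    cj (B₀ * U) X = cj B₀ Y := by
  unfold cj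
  rw [_root_.mul_inv_rev, Units.val_mul, Units.val_mul]
  have hU : (U : M2 K) * ((U⁻¹ : (M2 K)ˣ) : M2 K) = 1 := Units.mul_inv U
  calc (B₀ : M2 K) * (U : M2 K) * X * (((U⁻¹ : (M2 K)ˣ) : M2 K) * ((B₀⁻¹ : (M2 K)ˣ) : M2 K))
      = (B₀ : M2 K) * ((U : M2 K) * X) * ((U⁻¹ : (M2 K)ˣ) : M2 K) * ((B₀⁻¹ : (M2 K)ˣ) : M2 K) := by
        simp only [mul_assoc]
    _ = (B₀ : M2 K) * Y * ((U : M2 K) * ((U⁻¹ : (M2 K)ˣ) : M2 K)) * ((B₀⁻¹ : (M2 K)ˣ) : M2 K) := by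
        rw [h]; simp only [mul_assoc]
    _ = _ := by rw [hU, mul_one]

end MatrixLemmas

/-! ### From a stable line to `hred` -/

/-- A `G_p`-stable line of `ρbar` gives a basis in which `ρbar` is upper triangular on `D_P`. -/
theorem exists_upper_of_line
    (hline : ∃ ℓ : Submodule k ρbar.V, Module.finrank k ℓ = 1 ∧
      ∀ σ : Gp, ∀ v ∈ ℓ, ρbar.ρ (localGaloisToGlobal p σ) v ∈ ℓ) :
    ∃ B₀ : (M2 k)ˣ, ∀ σ ∈ (padicPlace p).decompositionSubgroup ℚ,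
      (((B₀⁻¹ : (M2 k)ˣ) : M2 k) * stdMat ρbar σ * (B₀ : M2 k)) 1 0 = 0 := by
  obtain ⟨ℓ, hℓ, hstab⟩ := hline
  obtain ⟨v, hv0, hv⟩ := finrank_eq_one_iff'.1 hℓ
  set b := stdBasis ρbar with hb
  set cv : Fin 2 → k := ⇑(b.repr (v : ρbar.V)) with hcv
  have hcv0 : cv ∉ IsLocalRing.maximalIdeal k • (⊤ : Submodule k (Fin 2 → k)) := by
    rw [IsLocalRing.maximalIdeal_eq_bot, Submodule.bot_smul, Submodule.mem_bot]
    intro h
    apply hv0
    apply Subtype.ext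
    have h1 : b.repr (v : ρbar.V) = 0 := by
      ext i
      exact congrFun h i
    exact (LinearEquiv.map_eq_zero_iff _).1 h1
  obtain ⟨b', hb'⟩ := Fermat.Agent.TW.Hopf.OrdLine.exists_basis_of_notMem
    (R := k) (V := Fin 2 → k) (by simp) hcv0
  refine ⟨basisUnit b', fun σ hσ => ?_⟩
  obtain ⟨τ, rfl⟩ := Fermat.Agent.TW.Loc.exists_localGaloisToGlobal_eq p hσ
  obtain ⟨x, hx⟩ := hv ⟨_, hstab τ v v.2⟩
  have hx' : ρbar.ρ (localGaloisToGlobal p τ) (v : ρbar.V) = x • (v : ρbar.V) := by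
    have := congrArg Subtype.val hx
    simpa using this.symm
  have hmv : (stdMat ρbar (localGaloisToGlobal p τ)) *ᵥ (b' 0) = x • b' 0 := by
    rw [hb', stdMat_apply, hcv, LinearMap.toMatrix_mulVec_repr, hx', map_smul]
    rfl
  exact (basisUnit_conj_col_zero b' _ hmv).1

/-! ### (T1) -/

/-- The residual shape read off from the conclusion of `TriFlatOut`. -/
theorem flatShape_of_tri (r : MatRep (DualNumber k))
    (hred : ∀ σ, redHom r.toHom σ = stdMat ρbar σ) (B : (M2 (DualNumber k))ˣ)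
    (hD : ∀ σ ∈ (padicPlace p).decompositionSubgroup ℚ, (conjHom B r.toHom σ) 1 0 = 0)
    (hI : ∀ σ ∈ (padicPlace p).inertiaSubgroupIn ℚ, (conjHom B r.toHom σ) 1 1 = 1 ∧
      ∀ a : ℕ, (∀ μ : Qb, μ ^ p = 1 → σ μ = μ ^ a) →
        (conjHom B r.toHom σ) 0 0 = (a : DualNumber k))
    (B₀ : (M2 k)ˣ) (hB₀ : (B₀ : M2 k) = mfst (B : M2 (DualNumber k))) : FlatShape ρbar p B₀ := by
  have hentry : ∀ σ (i j : Fin 2),
      (((B₀⁻¹ : (M2 k)ˣ) : M2 k) * stdMat ρbar σ * (B₀ : M2 k)) i j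
        = ((conjHom B r.toHom σ) i j).fst := by
    intro σ i j
    rw [← hred, ← mfst_conjHom B B₀ hB₀]
    rfl
  refine ⟨fun σ hσ => ?_, fun σ hσ => ⟨?_, fun a ha => ?_⟩⟩
  · rw [hentry, hD σ hσ]; rfl
  · rw [hentry, (hI σ hσ).1]; rfl
  · rw [hentry, (hI σ hσ).2 a ha]; simp

/-- **(T1)** one flat lift gives the residual shape. -/
theorem exists_flatShape (hTri : TriFlatOut p k) (r : MatRep (DualNumber k))
    (hred : ∀ σ, redHom r.toHom σ = stdMat ρbar σ) (hflat : r.toAdic.IsFlatAt p)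
    (hdet : r.toAdic.DetIsCyclotomic p)
    (hline : ∃ ℓ : Submodule k ρbar.V, Module.finrank k ℓ = 1 ∧
      ∀ σ : Gp, ∀ v ∈ ℓ, ρbar.ρ (localGaloisToGlobal p σ) v ∈ ℓ) :
    ∃ B₀ : (M2 k)ˣ, FlatShape ρbar p B₀ := by
  obtain ⟨B₁, hB₁⟩ := exists_upper_of_line hline
  obtain ⟨B, hD, hI⟩ := hTri r hflat hdet (padicPlace p) (padicPlace_liesOverPrime p)
    ⟨B₁, fun σ hσ => by rw [hred]; exact hB₁ σ hσ⟩
  obtain ⟨B₀, -, hB₀, -⟩ := unit_decomp B
  exact ⟨B₀, flatShape_of_tri r hred B hD hI B₀ hB₀⟩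

/-! ### (T2) -/

/-- The determinant of a lift with cyclotomic determinant has no `ε`-part. -/
theorem det_snd_eq_zero (r : MatRep (DualNumber k)) (hdet : r.toAdic.DetIsCyclotomic p) (σ : GQ) :
    ((r σ).det).snd = 0 := by
  have hp0 : (p : DualNumber k) = 0 := natCast_dualNumber_eq_zero hdet.1
  have hbot : Ideal.span {(((p ^ 1 : ℕ)) : DualNumber k)} = ⊥ := by
    rw [pow_one, hp0]; exact Ideal.span_singleton_eq_bot.2 rfl
  have h := hdet.2 1 σ (cycNat p σ) (fun μ hμ => cycNat_spec p σ μ (by rwa [pow_one] at hμ))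
  rw [hbot, Ideal.mem_bot, sub_eq_zero] at h
  have h1 : (r σ).det = (cycNat p σ : DualNumber k) := by
    rw [← h]
    exact (LinearMap.det_toLin' (r.toHom σ)).symm
  rw [h1]
  simp

/-- **(T2)** the tangent cochain of every flat lift in a fixed basis of flat shape. -/
theorem flat_form_fixed_basis (hTri : TriFlatOut p k) (h2 : (2 : k) ≠ 0) (B₀ : (M2 k)ˣ)
    (hS : FlatShape ρbar p B₀) (σ₀ : GQ) (hσ₀ : σ₀ ∈ (padicPlace p).inertiaSubgroupIn ℚ) (a : ℕ)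
    (ha : ∀ μ : Qb, μ ^ p = 1 → σ₀ μ = μ ^ a) (ha1 : (a : k) ≠ 1)
    (r : MatRep (DualNumber k)) (hred : ∀ σ, redHom r.toHom σ = stdMat ρbar σ)
    (hflat : r.toAdic.IsFlatAt p) (hdet : r.toAdic.DetIsCyclotomic p) :
    ∃ (m : M2 k) (f u : GQ → k), m.trace = 0 ∧
      (∀ σ ∈ (padicPlace p).decompositionSubgroup ℚ, tanCochain r.toHom σ
        = cj B₀ (e12 (f σ) + u σ • dg) + (m - stdMat ρbar σ * m * stdMat ρbar σ⁻¹)) ∧
      ∀ σ ∈ (padicPlace p).inertiaSubgroupIn ℚ, u σ = 0 := by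
  obtain ⟨B, hD, hI⟩ := hTri r hflat hdet (padicPlace p) (padicPlace_liesOverPrime p)
    ⟨B₀, fun σ hσ => by rw [hred]; exact hS.1 σ hσ⟩
  have hD' : ∀ σ ∈ (padicPlace p).decompositionSubgroup ℚ, (conjHom B r.toHom σ) 1 0 = 0 := hD
  obtain ⟨B₀', m', hB₀', hform⟩ := tanCochain_of_upper_det r.toHom B
    ((padicPlace p).decompositionSubgroup ℚ) hD' (fun σ _ => det_snd_eq_zero r hdet σ)
  have hS' : FlatShape ρbar p B₀' := flatShape_of_tri r hred B hD' hI B₀' hB₀'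
  -- the change of basis `U = B₀⁻¹ B₀'` is upper triangular
  set U : (M2 k)ˣ := B₀⁻¹ * B₀' with hUdef
  have hB₀U : B₀' = B₀ * U := by rw [hUdef, mul_inv_cancel_left]
  have hσ₀D : σ₀ ∈ (padicPlace p).decompositionSubgroup ℚ :=
    mem_decomposition_of_mem_inertia hσ₀
  have hinter : (((B₀⁻¹ : (M2 k)ˣ) : M2 k) * stdMat ρbar σ₀ * (B₀ : M2 k)) * (U : M2 k)
      = (U : M2 k) * (((B₀'⁻¹ : (M2 k)ˣ) : M2 k) * stdMat ρbar σ₀ * (B₀' : M2 k)) := by
    have h1 : (B₀ : M2 k) * (U : M2 k) = (B₀' : M2 k) := by rw [← Units.val_mul, ← hB₀U]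
    have h2 : (U : M2 k) * ((B₀'⁻¹ : (M2 k)ˣ) : M2 k) = ((B₀⁻¹ : (M2 k)ˣ) : M2 k) := by
      rw [← Units.val_mul, hUdef, mul_assoc, mul_inv_cancel, mul_one]
    calc ((B₀⁻¹ : (M2 k)ˣ) : M2 k) * stdMat ρbar σ₀ * (B₀ : M2 k) * (U : M2 k)
        = ((B₀⁻¹ : (M2 k)ˣ) : M2 k) * stdMat ρbar σ₀ * ((B₀ : M2 k) * (U : M2 k)) := by
          simp only [mul_assoc]
      _ = ((U : M2 k) * ((B₀'⁻¹ : (M2 k)ˣ) : M2 k)) * stdMat ρbar σ₀ * (B₀' : M2 k) := by
          rw [h1, h2]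
      _ = _ := by simp only [mul_assoc]
  have hU10 : (U : M2 k) 1 0 = 0 :=
    upper_of_intertwine hinter (hS.1 σ₀ hσ₀D) (hS.2 σ₀ hσ₀).1 (hS'.1 σ₀ hσ₀D)
      ((hS'.2 σ₀ hσ₀).2 a ha) ha1
  have hU11 : (U : M2 k) 1 1 ≠ 0 := by
    intro h
    have hu : IsUnit (U : M2 k).det := (Matrix.isUnit_iff_isUnit_det _).1 U.isUnit
    rw [Matrix.det_fin_two, hU10, h, mul_zero, mul_zero, sub_zero] at hu
    exact not_isUnit_zero hu
  -- the new coordinates
  set u : GQ → k := fun σ => dlogEntry B r.toHom 0 σ with hu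
  set f : GQ → k := fun σ =>
    ((U : M2 k) 0 0 * offEntry B r.toHom σ - 2 * (U : M2 k) 0 1 * u σ) / (U : M2 k) 1 1 with hf
  refine ⟨m' - (m'.trace / 2) • (1 : M2 k), f, u, ?_, fun σ hσ => ?_, fun σ hσ => ?_⟩
  · rw [Matrix.trace_sub, Matrix.trace_smul, Matrix.trace_one, Fintype.card_fin, smul_eq_mul]
    have : ((2 : ℕ) : k) = 2 := by norm_num
    rw [this, div_mul_cancel₀ _ h2, sub_self]
  · rw [hform σ hσ, hred, hred]
    have hcj : (B₀' : M2 k) * (e12 (offEntry B r.toHom σ) + hdiag (dlogEntry B r.toHom 0 σ))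
        * ((B₀'⁻¹ : (M2 k)ˣ) : M2 k) = cj B₀ (e12 (f σ) + u σ • dg) := by
      rw [hdiag_eq_smul_dg]
      show cj B₀' _ = _
      rw [hB₀U]
      exact cj_mul_of_comm B₀ U (upper_mul_e12_dg (U : M2 k) hU10 hU11 _ _)
    rw [hcj]
    congr 1
    have h1 : stdMat ρbar σ * stdMat ρbar σ⁻¹ = 1 := (stdMat ρbar).apply_mul_inv σ
    rw [mul_sub, sub_mul, mul_smul_comm, mul_one, smul_mul_assoc, h1]
    abel
  · show dlogEntry B r.toHom 0 σ = 0
    apply dlogEntry_eq_zero_of_snd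
    have h' : (conjHom B r.toHom σ) 0 0 = (cycNat p σ : DualNumber k) :=
      (hI σ hσ).2 (cycNat p σ) (cycNat_spec p σ)
    rw [h']
    simp

end Fermat.Agent.TW.LocFlat.Ord
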