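/-
S56 / Program G, LOC-flat ORD case (ORD-MAIN, helper19's cut (C); typed by helper10).

`chiT_eq_one_on_fixingSubgroup`: in a basis `B₀` of flat shape, the character `χ = T₀₀/T₁₁` of the
adjoint action on `k E` is trivial on `G_F` for an ORD field `F` killing the unramified LC
characters of exponent dividing `p (|k| - 1)`:
* `T₁₁` is an unramified LC character `G_p → kˣ`, hence trivial on `G_F`;
* `T₀₀ T₁₁ = det ρbar = ` the mod `p` cyclotomic character (reduction of a lift with cyclotomic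
  determinant), trivial on `G_F ⊆ Gal(ℚ̄_p/ℚ_p(μ_p))`.
-/
import Mathlib
import Fermat.Agent.TW.LocFlat.Ord.Chars
import Fermat.Agent.TW.LocFlat.Ord.Shape
import Fermat.Agent.TW.Bridge.LocalInertia

set_option autoImplicit false
set_option linter.unusedSectionVars false
set_option linter.style.haveILetI false

namespace Fermat.Agent.TW.LocFlat.Ord

open Matrix Module
open Fermat.Agent.TW.Ord Fermat.Agent.TW.Sel Fermat.Agent.S53 Fermat.Agent.TW.Ad0
open Fermat.Agent.CFT Fermat.Agent.S55 Fermat.Agent.TW.LocFlat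

local notation "M2" => Matrix (Fin 2) (Fin 2)
local notation "Qb" => AlgebraicClosure ℚ
local notation "GQ" => (AlgebraicClosure ℚ ≃ₐ[ℚ] AlgebraicClosure ℚ)

variable {k : Type} [Field k] {p : ℕ} [hp : Fact p.Prime]

local notation "Ωp" => PadicAlgCl p
local notation "Gp" => (PadicAlgCl p ≃ₐ[ℚ_[p]] PadicAlgCl p)

/-- An element of `G_p` fixing the `p`-th roots of unity of `ℚ̄_p` maps to an element of `G_ℚ`
fixing the `p`-th roots of unity of `ℚ̄`. -/
theorem localGaloisToGlobal_apply_rootOfUnity {g : Gp}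
    (hg : ∀ z : Ωp, z ^ p = 1 → g z = z) {μ : Qb} (hμ : μ ^ p = 1) :
    localGaloisToGlobal p g μ = μ := by
  apply (padicEmbedding p).toRingHom.injective
  show padicEmbedding p (localGaloisToGlobal p g μ) = padicEmbedding p μ
  rw [padicEmbedding_localGaloisToGlobal]
  apply hg
  rw [← map_pow, hμ, map_one]

/-- The determinant of a lift with cyclotomic determinant is `1` at an element fixing `μ_p`. -/
theorem det_eq_one_of_fixes_rootOfUnity (r : MatRep (DualNumber k))
    (hdet : r.toAdic.DetIsCyclotomic p) {σ : GQ} (hσ : ∀ μ : Qb, μ ^ p = 1 → σ μ = μ) :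
    (r σ).det = 1 := by
  have hp0 : (p : DualNumber k) = 0 := natCast_dualNumber_eq_zero hdet.1
  have hbot : Ideal.span {(((p ^ 1 : ℕ)) : DualNumber k)} = ⊥ := by
    rw [pow_one, hp0]; exact Ideal.span_singleton_eq_bot.2 rfl
  have h := hdet.2 1 σ 1 (fun μ hμ => by rw [pow_one] at hμ ⊢; exact hσ μ hμ)
  rw [hbot, Ideal.mem_bot, sub_eq_zero, Nat.cast_one] at h
  rw [← h]
  exact (LinearMap.det_toLin' (r.toHom σ)).symm

/-- Reduction mod `ε` commutes with determinants. -/
theorem det_mfst (X : M2 (DualNumber k)) : (mfst X).det = (X.det).fst := by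
  have h := (RingHom.map_det (TrivSqZeroExt.fstHom k k (M := k)).toRingHom X)
  rw [mfst]
  exact h.symm

/-- `det T = det ρbar`. -/
theorem det_tMat (ρbar : ResidualGaloisRep k) (B₀ : (M2 k)ˣ) (σ : GQ) : (tMat ρbar B₀ σ).det = (stdMat ρbar σ).det := by
  rw [tMat, Matrix.det_mul, Matrix.det_mul]
  have h : (((B₀⁻¹ : (M2 k)ˣ) : M2 k)).det * ((B₀ : M2 k)).det = 1 := by
    rw [← Matrix.det_mul, Units.inv_mul, Matrix.det_one]
  calc (((B₀⁻¹ : (M2 k)ˣ) : M2 k)).det * (stdMat ρbar σ).det * ((B₀ : M2 k)).det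
      = ((((B₀⁻¹ : (M2 k)ˣ) : M2 k)).det * ((B₀ : M2 k)).det) * (stdMat ρbar σ).det := by ring
    _ = _ := by rw [h, one_mul]

/-- **Cut (C) of ORD-MAIN.** -/
theorem chiT_eq_one_on_fixingSubgroup [CharP k p] [Finite k] (ρbar : ResidualGaloisRep k)
    (B₀ : (M2 k)ˣ) (hS : FlatShape ρbar p B₀)
    (r : MatRep (DualNumber k)) (hred : ∀ σ, redHom r.toHom σ = stdMat ρbar σ)
    (hdet : r.toAdic.DetIsCyclotomic p)
    (F : IntermediateField ℚ_[p] (PadicAlgCl p)) (hFord : IsOrdField p F)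
    (hK : ∀ (A : Type) [CommGroup A] (χ : Gp →* A), (∀ g, χ g ^ (p * (Nat.card k - 1)) = 1) →
      (levelOf (localGaloisToGlobal p)).IsLC₁ χ →
      (∀ t : Gp, (∀ y : Ωp, ‖y‖ ≤ 1 → ‖t y - y‖ < 1) → χ t = 1) →
      ∀ σ ∈ F.fixingSubgroup, χ σ = 1) :
    ∀ g ∈ F.fixingSubgroup, chiT ρbar B₀ (localGaloisToGlobal p g) = 1 := by
  intro g hg
  have hup : ∀ g : Gp, tMat ρbar B₀ (localGaloisToGlobal p g) 1 0 = 0 := fun g =>
    hS.1 _ (localGaloisToGlobal_mem_decompositionSubgroup p g)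
  -- `T₁₁ = 1` on `G_F`
  have h11 : tMat ρbar B₀ (localGaloisToGlobal p g) 1 1 = 1 := by
    have hexp : ∀ g : Gp, diagHom ρbar B₀ p hup 1 g ^ (p * (Nat.card k - 1)) = 1 := by
      intro g
      have hcard : Nat.card kˣ = Nat.card k - 1 := Nat.card_units k
      rw [mul_comm, pow_mul, ← hcard, pow_card_eq_one', one_pow]
    have hinert : ∀ t : Gp, (∀ y : Ωp, ‖y‖ ≤ 1 → ‖t y - y‖ < 1) →
        diagHom ρbar B₀ p hup 1 t = 1 := by
      intro t ht
      apply Units.ext
      rw [coe_diagHom, Units.val_one]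
      exact (hS.2 _ ((Fermat.Agent.TW.Bridge.LocalInertia.localGaloisToGlobal_mem_inertia_iff t).2 ht)).1
    have h := hK kˣ (diagHom ρbar B₀ p hup 1) hexp (isLC₁_diagHom ρbar B₀ p hup 1) hinert g hg
    rw [← coe_diagHom ρbar B₀ p hup 1 g, h, Units.val_one]
  -- `g` fixes the `p`-th roots of unity
  have hgμ : ∀ z : Ωp, z ^ p = 1 → g z = z := fun z hz =>
    (IntermediateField.mem_fixingSubgroup_iff F g).1 hg z (hFord.zeta_mem z hz)
  -- `det ρbar (ι g) = 1`
  have hdet1 : (stdMat ρbar (localGaloisToGlobal p g)).det = 1 := by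
    rw [← hred, redHom_apply, det_mfst,
      det_eq_one_of_fixes_rootOfUnity r hdet
        (fun μ hμ => localGaloisToGlobal_apply_rootOfUnity hgμ hμ)]
    rfl
  -- `T₀₀ T₁₁ = det`
  have hprod : tMat ρbar B₀ (localGaloisToGlobal p g) 0 0
      * tMat ρbar B₀ (localGaloisToGlobal p g) 1 1 = 1 := by
    have h := det_tMat ρbar B₀ (localGaloisToGlobal p g)
    rw [Matrix.det_fin_two, hup g, mul_zero, sub_zero, hdet1] at h
    exact h
  rw [h11, mul_one] at hprod
  rw [chiT, hprod, h11, div_one]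

end Fermat.Agent.TW.LocFlat.Ord
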