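/-
S56 / Program G, LOC-flat ORD case, ORD-MAIN cut (D) (helper11, for helper19): the field `hdep` of
`ZData` from the ORD count `OrdCountOut` (OF-4).

`χ := chiHom ρbar B₀ p hup = χ₁/χ₂ : G_p →* kˣ`; it is trivial on `G_F` (`hχF`) and non-trivial on
norm-inertia: for `σ₀ ∈ I_P` acting on `μ_p` by squaring (`Ord/Out.exists_inertia_sq`, `p` odd),
`χ(σ₀) = 2 ≠ 1` in `k` by `FlatShape`.
-/
import Mathlib
import Fermat.Agent.TW.LocFlat.Ord.Chars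
import Fermat.Agent.TW.LocFlat.Ord.Shape
import Fermat.Agent.TW.Ord.Out
import Fermat.Agent.TW.Bridge.LocalInertia
import Fermat.Agent.TW.Loc.LocalSurj

set_option autoImplicit false
set_option linter.unusedSectionVars false
set_option linter.style.haveILetI false

namespace Fermat.Agent.TW.LocFlat.Ord

open Matrix Module
open Fermat.Agent.TW.Ord Fermat.Agent.TW.Sel Fermat.Agent.S53 Fermat.Agent.TW.Ad0
open Fermat.Agent.CFT Fermat.Agent.S55 Fermat.Agent.TW.LocFlat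

local notation "M2" => Matrix (Fin 2) (Fin 2)
local notation "Qb" => AlgebraicClosure ℚ
local notation "GQ" => (AlgebraicClosure ℚ ≃ₐ[ℚ] AlgebraicClosure ℚ)

variable {k : Type} [Field k] {p : ℕ} [hp : Fact p.Prime]

local notation "Ωp" => PadicAlgCl p
local notation "Gp" => (PadicAlgCl p ≃ₐ[ℚ_[p]] PadicAlgCl p)

/-- `FlatShape` gives upper triangularity on all of `G_p`. -/
theorem hup_of_flatShape {ρbar : ResidualGaloisRep k} {B₀ : (M2 k)ˣ} (hS : FlatShape ρbar p B₀)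
    (g : Gp) : tMat ρbar B₀ (localGaloisToGlobal p g) 1 0 = 0 :=
  hS.1 _ (localGaloisToGlobal_mem_decompositionSubgroup p g)

/-- A norm-inertia element on which `χ₁/χ₂` is `2 ≠ 1`. -/
theorem exists_normInertia_chiT_ne_one [CharP k p] (hp2 : p ≠ 2) {ρbar : ResidualGaloisRep k}
    {B₀ : (M2 k)ˣ} (hS : FlatShape ρbar p B₀) :
    ∃ t : Gp, (∀ y : Ωp, ‖y‖ ≤ 1 → ‖t y - y‖ < 1) ∧
      chiT ρbar B₀ (localGaloisToGlobal p t) ≠ 1 := by
  obtain ⟨σ₀, hσ₀, hsq⟩ := exists_inertia_sq (p := p) hp2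
  obtain ⟨t, ht⟩ := Fermat.Agent.TW.Loc.exists_localGaloisToGlobal_eq p
    (mem_decomposition_of_mem_inertia hσ₀)
  refine ⟨t, ?_, ?_⟩
  · rw [← Fermat.Agent.TW.Bridge.LocalInertia.localGaloisToGlobal_mem_inertia_iff, ht]
    exact hσ₀
  · rw [ht]
    obtain ⟨h11, h00⟩ := hS.2 σ₀ hσ₀
    have h00' := h00 2 hsq
    show tMat ρbar B₀ σ₀ 0 0 / tMat ρbar B₀ σ₀ 1 1 ≠ 1
    have e11 : tMat ρbar B₀ σ₀ 1 1 = 1 := h11
    have e00 : tMat ρbar B₀ σ₀ 0 0 = ((2 : ℕ) : k) := h00'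
    rw [e11, e00, div_one]
    intro h
    -- `2 = 1` in `k` forces `1 = 0`
    have h1 : ((1 : ℕ) : k) = 0 := by
      have : ((2 : ℕ) : k) - 1 = 0 := by rw [h, sub_self]
      have h2 : ((2 : ℕ) : k) - 1 = ((1 : ℕ) : k) := by norm_num
      rw [← h2, this]
    rw [Nat.cast_one] at h1
    exact one_ne_zero h1

/-- **Cut (D)**: the field `hdep` of `ZData` from `OrdCountOut`. -/
theorem hdep_of_ordCountOut [CharP k p] (hp2 : p ≠ 2) (hC : OrdCountOut p k)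
    (ρbar : ResidualGaloisRep k) (B₀ : (M2 k)ˣ) (hS : FlatShape ρbar p B₀)
    (F : IntermediateField ℚ_[p] Ωp) (hFord : IsOrdField p F) (ζp : Ωp)
    (hζp : IsPrimitiveRoot ζp p)
    (hχF : ∀ g ∈ F.fixingSubgroup, chiT ρbar B₀ (localGaloisToGlobal p g) = 1) :
    ∀ f₁ f₂ : Gp → k,
      (∀ g h, f₁ (g * h) = f₁ g + chiT ρbar B₀ (localGaloisToGlobal p g) * f₁ h) →
      (∀ g h, f₂ (g * h) = f₂ g + chiT ρbar B₀ (localGaloisToGlobal p g) * f₂ h) →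
      (levelOf (localGaloisToGlobal p)).IsLC₁ f₁ → (levelOf (localGaloisToGlobal p)).IsLC₁ f₂ →
      AllowedAt p F ζp f₁ → AllowedAt p F ζp f₂ →
      ∃ b₁ b₂ : k, (b₁ ≠ 0 ∨ b₂ ≠ 0) ∧ ∃ n : k, ∀ g,
        b₁ * f₁ g + b₂ * f₂ g = (chiT ρbar B₀ (localGaloisToGlobal p g) - 1) * n := by
  intro f₁ f₂ hf₁ hf₂ hlc₁ hlc₂ ha₁ ha₂
  have hup := hup_of_flatShape hS
  set χ : Gp →* kˣ := chiHom ρbar B₀ p hup with hχ
  have hχv : ∀ g, ((χ g : kˣ) : k) = chiT ρbar B₀ (localGaloisToGlobal p g) :=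
    coe_chiHom ρbar B₀ p hup
  obtain ⟨t, htI, htχ⟩ := exists_normInertia_chiT_ne_one hp2 hS
  obtain ⟨b₁, b₂, hb, n, hn⟩ := hC F hFord ζp hζp χ
    (fun σ hσ => Units.ext (by rw [hχv, hχF σ hσ]; rfl))
    ⟨t, htI, fun h => htχ (by rw [← hχv, h]; rfl)⟩ f₁ f₂
    (fun g h => by rw [hχv]; exact hf₁ g h) (fun g h => by rw [hχv]; exact hf₂ g h)
    hlc₁ hlc₂ ha₁ ha₂
  exact ⟨b₁, b₂, hb, n, fun g => by rw [hn g, hχv]⟩

end Fermat.Agent.TW.LocFlat.Ord
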