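import Mathlib
import Fermat.Agent.TW.LocFlat.OrdContracts
import Fermat.Agent.TW.OrdCount.ExistsRadical

/-!
# S56 / LOC-flat, ORD case, ORD-MAIN step (3): `AllowedAt` is additive

`Ω = PadicAlgCl p`, `G_p = Gal(Ω/ℚ_p)`, `F` an ORD field (finite over `ℚ_p`, contains `μ_p`).
If `f₁, f₂ : G_p → k` are level-constant, additive on `G_F` and `AllowedAt p F ζp`, then so is
`f₁ + f₂`: a Kummer radical `β` of `lam ∘ (f₁ + f₂)|G_F` factors as `β = β₁ β₂` with `β₁` a radical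
of `lam ∘ f₁|G_F` (`OrdCount.Radical0.exists_radical`, helper13) and `β₂ := β / β₁` a radical of
`lam ∘ f₂|G_F`; with `cᵢ` from the two hypotheses, `c := c₁ c₂` works since
`‖(1 + x)(1 + y) - 1‖ ≤ ‖p‖` for `‖x‖, ‖y‖ ≤ ‖p‖` (ultrametric).

* `AllowedAddOut p k` — the literal contract (helper19, msg 20567);
* `allowedAddOut : AllowedAddOut p k`;
* `AllowedAt.smul`: stability under scalars (composition with `lam ∘ (b * ·)`).
-/

set_option autoImplicit false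
set_option linter.unusedSectionVars false

namespace Fermat.Agent.TW.LocFlat.Ord

open Fermat.Agent.S55 Fermat.Agent.TW.LocFlat IntermediateField

variable (p : ℕ) [hp : Fact p.Prime]

local notation "Ωp" => PadicAlgCl p
local notation "Gp" => (PadicAlgCl p ≃ₐ[ℚ_[p]] PadicAlgCl p)

/-- **Contract (ORD-MAIN step (3))**: `AllowedAt` is stable under addition of LC functions which
are additive on `G_F`. -/
def AllowedAddOut (k : Type) [Field k] : Prop :=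
  ∀ (F : IntermediateField ℚ_[p] Ωp), IsOrdField p F → ∀ ζp : Ωp, IsPrimitiveRoot ζp p →
  ∀ f₁ f₂ : Gp → k,
    (∀ g ∈ F.fixingSubgroup, ∀ h ∈ F.fixingSubgroup, f₁ (g * h) = f₁ g + f₁ h) →
    (∀ g ∈ F.fixingSubgroup, ∀ h ∈ F.fixingSubgroup, f₂ (g * h) = f₂ g + f₂ h) →
    (levelOf (localGaloisToGlobal p)).IsLC₁ f₁ → (levelOf (localGaloisToGlobal p)).IsLC₁ f₂ →
    AllowedAt p F ζp f₁ → AllowedAt p F ζp f₂ → AllowedAt p F ζp (fun g => f₁ g + f₂ g)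

variable {p}

/-- `‖u v - 1‖ ≤ ε` as soon as `‖u - 1‖, ‖v - 1‖ ≤ ε ≤ 1` (ultrametric). -/
theorem norm_mul_sub_one_le_of_le {u v : Ωp} {ε : ℝ} (hε : ε ≤ 1) (hu : ‖u - 1‖ ≤ ε)
    (hv : ‖v - 1‖ ≤ ε) : ‖u * v - 1‖ ≤ ε := by
  have h0 : 0 ≤ ε := (norm_nonneg _).trans hu
  have key : u * v - 1 = (u - 1) * (v - 1) + ((u - 1) + (v - 1)) := by ring
  rw [key]
  refine (IsUltrametricDist.norm_add_le_max _ _).trans (max_le ?_ ?_)
  · rw [norm_mul]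
    calc ‖u - 1‖ * ‖v - 1‖ ≤ ε * 1 :=
          mul_le_mul hu (hv.trans hε) (norm_nonneg _) h0
      _ = ε := mul_one ε
  · exact (IsUltrametricDist.norm_add_le_max _ _).trans (max_le hu hv)

/-- `ζ ^ (a + b).val = ζ ^ a.val * ζ ^ b.val` for `ζ ^ p = 1`. -/
theorem pow_val_add {ζ : Ωp} (hζ : ζ ^ p = 1) (a b : ZMod p) :
    ζ ^ (a + b).val = ζ ^ a.val * ζ ^ b.val := by
  rw [← pow_add, ZMod.val_add, pow_eq_pow_mod (a.val + b.val) hζ]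

theorem norm_natCast_p_le_one : ‖(p : Ωp)‖ ≤ 1 := by
  have h : ((p : ℚ_[p]) : Ωp) = (p : Ωp) := map_natCast (algebraMap ℚ_[p] Ωp) p
  rw [← h, PadicAlgCl.norm_extends]
  exact Padic.norm_p_lt_one.le

/-- **`AllowedAt` is additive**, given a radical for the first summand. -/
theorem allowedAt_add_of_radical {F : IntermediateField ℚ_[p] Ωp} {ζp : Ωp}
    (hζp : IsPrimitiveRoot ζp p) {M : Type*} [AddCommGroup M] {ξ₁ ξ₂ : Gp → M}
    (h₁ : AllowedAt p F ζp ξ₁) (h₂ : AllowedAt p F ζp ξ₂)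
    (hrad : ∀ lam : M →+ ZMod p, ∃ β₁ : Ωp, β₁ ≠ 0 ∧
      ∀ σ ∈ F.fixingSubgroup, σ β₁ = ζp ^ (lam (ξ₁ σ)).val * β₁) :
    AllowedAt p F ζp (fun σ => ξ₁ σ + ξ₂ σ) := by
  intro lam β hβ0 hβ
  obtain ⟨β₁, hβ₁0, hβ₁⟩ := hrad lam
  have hζ0 : ζp ≠ 0 := hζp.ne_zero hp.out.ne_zero
  have hβ₂0 : β / β₁ ≠ 0 := div_ne_zero hβ0 hβ₁0
  have hβ₂ : ∀ σ ∈ F.fixingSubgroup, σ (β / β₁) = ζp ^ (lam (ξ₂ σ)).val * (β / β₁) := by
    intro σ hσ
    have hpow : ζp ^ (lam (ξ₁ σ)).val ≠ 0 := pow_ne_zero _ hζ0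
    rw [map_div₀, hβ σ hσ, hβ₁ σ hσ, map_add, pow_val_add hζp.pow_eq_one]
    field_simp
  obtain ⟨c₁, hc₁F, hc₁0, hc₁⟩ := h₁ lam β₁ hβ₁0 hβ₁
  obtain ⟨c₂, hc₂F, hc₂0, hc₂⟩ := h₂ lam (β / β₁) hβ₂0 hβ₂
  refine ⟨c₁ * c₂, F.mul_mem hc₁F hc₂F, mul_ne_zero hc₁0 hc₂0, ?_⟩
  have key : β ^ p / (c₁ * c₂) ^ p = (β₁ ^ p / c₁ ^ p) * ((β / β₁) ^ p / c₂ ^ p) := by
    have h1 : β₁ ^ p ≠ 0 := pow_ne_zero _ hβ₁0
    have h2 : c₁ ^ p ≠ 0 := pow_ne_zero _ hc₁0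
    have h3 : c₂ ^ p ≠ 0 := pow_ne_zero _ hc₂0
    rw [mul_pow, div_pow]
    field_simp
  rw [key]
  exact norm_mul_sub_one_le_of_le norm_natCast_p_le_one hc₁ hc₂

/-- **`AllowedAt` is stable under scalars** (`M` a module over any ring `k`). -/
theorem AllowedAt.smul {F : IntermediateField ℚ_[p] Ωp} {ζp : Ωp} {k M : Type*} [Monoid k]
    [AddCommGroup M] [DistribMulAction k M] {ξ : Gp → M} (h : AllowedAt p F ζp ξ) (b : k) :
    AllowedAt p F ζp (fun σ => b • ξ σ) :=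
  h.comp (DistribSMul.toAddMonoidHom M b)

variable (p)

/-- **ORD-MAIN step (3)**: `AllowedAt` is additive on LC functions additive on `G_F`. -/
theorem allowedAddOut (k : Type) [Field k] : AllowedAddOut p k := by
  intro F hF ζp hζp f₁ f₂ hadd₁ _ hLC₁ _ h₁ h₂
  have := hF.fd
  refine allowedAt_add_of_radical hζp h₁ h₂ fun lam => ?_
  obtain ⟨β₁, hβ₁0, -, hβ₁⟩ := Fermat.Agent.TW.OrdCount.Radical0.exists_radical F hζp
    (hF.zeta_mem ζp hζp.pow_eq_one) (fun σ => lam (f₁ σ))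
    (fun σ hσ τ hτ => by rw [hadd₁ σ hσ τ hτ, map_add])
    (hLC₁.comp lam)
  exact ⟨β₁, hβ₁0, hβ₁⟩

end Fermat.Agent.TW.LocFlat.Ord
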