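import Mathlib
import Fermat.Agent.TW.LocFlat.OrdContracts

/-!
# S56 / LOC-flat, ORD case: the zero function is `AllowedAt` (helper5, for helper19's ORD-MAIN)

A Kummer radical of the zero character is fixed by `G_F`, hence lies in `F`; take `c := β`.
-/

set_option autoImplicit false
set_option linter.unusedSectionVars false

namespace Fermat.Agent.TW.LocFlat.Ord

open Fermat.Agent.TW.LocFlat IntermediateField

variable (p : ℕ) [hp : Fact p.Prime]

local notation "Ωp" => PadicAlgCl p
local notation "Gp" => (PadicAlgCl p ≃ₐ[ℚ_[p]] PadicAlgCl p)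

/-- An element of `Ω` fixed by `G_F` lies in `F`. -/
theorem mem_of_fixingSubgroup_fixed (F : IntermediateField ℚ_[p] Ωp) (x : Ωp)
    (hx : ∀ σ ∈ F.fixingSubgroup, σ x = x) : x ∈ F := by
  have h1 : x ∈ IntermediateField.fixedField F.fixingSubgroup := fun σ => hx σ.1 σ.2
  rwa [InfiniteGalois.fixedField_fixingSubgroup] at h1

/-- **The zero function is allowed** over every intermediate field. -/
theorem allowedAt_zero (F : IntermediateField ℚ_[p] Ωp) (ζp : Ωp) {M : Type*} [AddCommGroup M] :
    AllowedAt p F ζp (fun _ : Gp => (0 : M)) := by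
  intro lam β hβ0 hβ
  have hβF : β ∈ F := by
    refine mem_of_fixingSubgroup_fixed p F β (fun σ hσ => ?_)
    have h := hβ σ hσ
    simpa using h
  refine ⟨β, hβF, hβ0, ?_⟩
  rw [div_self (pow_ne_zero p hβ0), sub_self, norm_zero]
  exact norm_nonneg _

/-- A function vanishing on `G_F` is allowed over `F` (same proof). -/
theorem allowedAt_of_vanish_on_fixingSubgroup (F : IntermediateField ℚ_[p] Ωp) (ζp : Ωp)
    {M : Type*} [AddCommGroup M] (ξ : Gp → M) (hξ : ∀ σ ∈ F.fixingSubgroup, ξ σ = 0) :
    AllowedAt p F ζp ξ := by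
  intro lam β hβ0 hβ
  have hβF : β ∈ F := by
    refine mem_of_fixingSubgroup_fixed p F β (fun σ hσ => ?_)
    have h := hβ σ hσ
    rw [hξ σ hσ] at h
    simpa using h
  refine ⟨β, hβF, hβ0, ?_⟩
  rw [div_self (pow_ne_zero p hβ0), sub_self, norm_zero]
  exact norm_nonneg _

end Fermat.Agent.TW.LocFlat.Ord
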