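import Mathlib

/-!
# S56 / LOC-flat, ORD case: pairwise dependence modulo a subspace ⇒ quotient of dimension `≤ 1`
(helper5, for helper19's `locBound_flat_ord`)

If any two vectors of `V` are linearly dependent modulo the subspace `K`, then `V ⧸ K` is finite
dimensional of dimension at most one.
-/

set_option autoImplicit false

namespace Fermat.Agent.TW.LocFlat.Ord

/-- If any two vectors of a `k`-vector space are linearly dependent then it is spanned by a
single vector. -/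
theorem exists_span_singleton_eq_top_of_pairwise {k W : Type*} [Field k] [AddCommGroup W]
    [Module k W]
    (h : ∀ w₁ w₂ : W, ∃ b₁ b₂ : k, (b₁ ≠ 0 ∨ b₂ ≠ 0) ∧ b₁ • w₁ + b₂ • w₂ = 0) :
    ∃ w : W, Submodule.span k {w} = ⊤ := by
  by_cases h0 : ∀ w : W, w = 0
  · refine ⟨0, ?_⟩
    rw [eq_top_iff]
    intro w _
    rw [h0 w]
    exact Submodule.zero_mem _
  · obtain ⟨w, hw⟩ := not_forall.1 h0
    refine ⟨w, ?_⟩
    rw [eq_top_iff]
    intro x _
    obtain ⟨b₁, b₂, hb, hrel⟩ := h w x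
    have hb2 : b₂ ≠ 0 := by
      intro hb2
      rw [hb2, zero_smul, add_zero] at hrel
      rcases hb with hb | hb
      · exact hw ((smul_eq_zero.1 hrel).resolve_left hb)
      · exact hb hb2
    rw [Submodule.mem_span_singleton]
    refine ⟨-(b₂⁻¹ * b₁), ?_⟩
    have h1 : b₂ • x = -(b₁ • w) := eq_neg_of_add_eq_zero_right hrel
    calc (-(b₂⁻¹ * b₁)) • w = b₂⁻¹ • (-(b₁ • w)) := by
          rw [neg_smul, mul_smul, smul_neg]
      _ = b₂⁻¹ • (b₂ • x) := by rw [h1]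
      _ = x := by rw [smul_smul, inv_mul_cancel₀ hb2, one_smul]

/-- **Pairwise dependence modulo `K`** ⇒ `dim V ⧸ K ≤ 1`. -/
theorem finrank_quotient_le_one_of_pairwise {k V : Type*} [Field k] [AddCommGroup V]
    [Module k V] (K : Submodule k V)
    (h : ∀ v₁ v₂ : V, ∃ b₁ b₂ : k, (b₁ ≠ 0 ∨ b₂ ≠ 0) ∧ b₁ • v₁ + b₂ • v₂ ∈ K) :
    Module.Finite k (V ⧸ K) ∧ Module.finrank k (V ⧸ K) ≤ 1 := by
  have hq : ∀ w₁ w₂ : V ⧸ K, ∃ b₁ b₂ : k, (b₁ ≠ 0 ∨ b₂ ≠ 0) ∧ b₁ • w₁ + b₂ • w₂ = 0 := by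
    intro w₁ w₂
    obtain ⟨v₁, rfl⟩ := Submodule.Quotient.mk_surjective K w₁
    obtain ⟨v₂, rfl⟩ := Submodule.Quotient.mk_surjective K w₂
    obtain ⟨b₁, b₂, hb, hmem⟩ := h v₁ v₂
    refine ⟨b₁, b₂, hb, ?_⟩
    rw [← Submodule.Quotient.mk_smul, ← Submodule.Quotient.mk_smul, ← Submodule.Quotient.mk_add,
      Submodule.Quotient.mk_eq_zero]
    exact hmem
  obtain ⟨w, hw⟩ := exists_span_singleton_eq_top_of_pairwise hq
  have hfin : Module.Finite k (V ⧸ K) := by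
    refine ⟨⟨{w}, ?_⟩⟩
    rw [Finset.coe_singleton]
    exact hw
  refine ⟨hfin, ?_⟩
  have h1 : Module.finrank k (⊤ : Submodule k (V ⧸ K)) ≤ 1 := by
    rw [← hw]
    by_cases hw0 : w = 0
    · rw [hw0, Submodule.span_zero_singleton, finrank_bot]
      exact Nat.zero_le _
    · exact (finrank_span_singleton hw0).le
  rwa [finrank_top] at h1

end Fermat.Agent.TW.LocFlat.Ord
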