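/-
S56 / Program G, LOC-flat ORD case (ORD-MAIN, helper19), file 3: the space `Z` of Borel-valued,
`H`-unramified, `E`-allowed LC cocycles of `G_p` in `ad⁰ ρbar`, and the count
`dim (image of Z in H¹) ≤ h⁰ + 1`.

Data (`ZData`): a basis `B₀` in which `ρbar|G_p` is upper triangular, a field `F` (the `OrdField`)
over which the character `χ` of `k E` and all unramified additive characters die, pairwise
dependence of allowed `χ`-cocycles modulo coboundaries (`OrdCountOut`), and `AllowedAt` for the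
coboundary of `H`.
-/
import Mathlib
import Fermat.Agent.TW.LocFlat.Ord.Chars
import Fermat.Agent.TW.LocFlat.Ord.PairLin
import Fermat.Agent.TW.LocFlat.Ord.AllowedZero
import Fermat.Agent.TW.LocFlat.Ord.AllowedAdd
import Fermat.Agent.TW.LocFlat.OrdCount.Main
import Fermat.Agent.TW.Bridge.UnrHom
import Fermat.Agent.TW.Ord.Subspace

set_option autoImplicit false
set_option linter.unusedSectionVars false
set_option linter.style.haveILetI false

namespace Fermat.Agent.TW.LocFlat.Ord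

open Matrix Module groupCohomology
open Fermat.Agent.TW.Ord Fermat.Agent.TW.Sel Fermat.Agent.S53 Fermat.Agent.TW.Ad0
open Fermat.Agent.CFT Fermat.Agent.S55 Fermat.Agent.TW.LocFlat Fermat.Agent.TW.LocFlat.OrdCount
open Fermat.Agent.TW.LocOrd

local notation "M2" => Matrix (Fin 2) (Fin 2)
local notation "Qb" => AlgebraicClosure ℚ
local notation "GQ" => (AlgebraicClosure ℚ ≃ₐ[ℚ] AlgebraicClosure ℚ)

variable {k : Type} [Field k] (ρbar : ResidualGaloisRep k) (B₀ : (M2 k)ˣ)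
  (p : ℕ) [hp : Fact p.Prime]

local notation "Ωp" => PadicAlgCl p
local notation "Gp" => (PadicAlgCl p ≃ₐ[ℚ_[p]] PadicAlgCl p)

/-- `ad⁰ ρbar` restricted to `G_p`. -/
noncomputable abbrev resAd : Rep.{0} k Gp := Rep.res (localGaloisToGlobal p) (ad0Rep ρbar)

/-- The level structure of `G_p`. -/
noncomputable abbrev lvP : LevelStructure Gp := levelOf (localGaloisToGlobal p)

theorem resAd_ρ (g : Gp) (x : (resAd ρbar p)) :
    (resAd ρbar p).ρ g x = (ad0Rep ρbar).ρ (localGaloisToGlobal p g) (show (ad0Rep ρbar) from x) :=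
  rfl

/-- The `E`-coordinate on the restricted representation. -/
noncomputable def EcoR : (resAd ρbar p) →ₗ[k] k := Eco ρbar B₀

/-- The `H`-coordinate on the restricted representation. -/
noncomputable def HcoR : (resAd ρbar p) →ₗ[k] k := Hco ρbar B₀

/-- The Borel subalgebra in the restricted representation. -/
noncomputable def borBR : Submodule k (resAd ρbar p) := borB ρbar B₀

/-- `E` in the restricted representation. -/
noncomputable def ER : (resAd ρbar p) := ordE ρbar B₀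

/-- `H` in the restricted representation. -/
noncomputable def HR : (resAd ρbar p) := ordH ρbar B₀

/-- The nilpotent line `k E` in the restricted representation. -/
noncomputable def nilBR : Submodule k (resAd ρbar p) := Submodule.span k {ER ρbar B₀ p}

/-! ### Unramified additive characters -/

variable (k)

/-- The additive, level-constant, unramified functions `G_p → k`. -/
def urW : Submodule k (Gp → k) where
  carrier := {u | (∀ g h : Gp, u (g * h) = u g + u h) ∧ (lvP p).IsLC₁ u ∧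
    ∀ s : Gp, localGaloisToGlobal p s ∈ (padicPlace p).inertiaSubgroupIn ℚ → u s = 0}
  add_mem' := by
    rintro u v ⟨hu1, hu2, hu3⟩ ⟨hv1, hv2, hv3⟩
    refine ⟨fun g h => ?_, hu2.add hv2, fun s hs => ?_⟩
    · simp only [Pi.add_apply, hu1, hv1]; abel
    · simp only [Pi.add_apply, hu3 s hs, hv3 s hs, add_zero]
  zero_mem' := ⟨fun _ _ => by simp, (lvP p).isLC₁_const (0 : k), fun _ _ => rfl⟩
  smul_mem' := by
    rintro c u ⟨hu1, hu2, hu3⟩
    refine ⟨fun g h => ?_, hu2.comp (c • ·), fun s hs => ?_⟩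
    · simp only [Pi.smul_apply, hu1, smul_add]
    · simp only [Pi.smul_apply, hu3 s hs, smul_zero]

theorem finrank_urW_le : Module.Finite k (urW k p) ∧ finrank k (urW k p) ≤ 1 :=
  Fermat.Agent.TW.Bridge.UnrHom.finrank_le_one_of_forall (urW k p) (fun _ hu => hu)

variable {k}

/-! ### The data -/

/-- The data of the count. -/
structure ZData (F : IntermediateField ℚ_[p] Ωp) (ζp : Ωp) : Prop where
  hF : IsOrdField p F
  hζp : IsPrimitiveRoot ζp p
  hup : ∀ g : Gp, tMat ρbar B₀ (localGaloisToGlobal p g) 1 0 = 0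
  hχF : ∀ g ∈ F.fixingSubgroup, chiT ρbar B₀ (localGaloisToGlobal p g) = 1
  hkill : ∀ u ∈ urW k p, ∀ σ ∈ F.fixingSubgroup, u σ = 0
  hdep : ∀ f₁ f₂ : Gp → k,
    (∀ g h, f₁ (g * h) = f₁ g + chiT ρbar B₀ (localGaloisToGlobal p g) * f₁ h) →
    (∀ g h, f₂ (g * h) = f₂ g + chiT ρbar B₀ (localGaloisToGlobal p g) * f₂ h) →
    (lvP p).IsLC₁ f₁ → (lvP p).IsLC₁ f₂ → AllowedAt p F ζp f₁ → AllowedAt p F ζp f₂ →
    ∃ b₁ b₂ : k, (b₁ ≠ 0 ∨ b₂ ≠ 0) ∧ ∃ n : k, ∀ g,
      b₁ * f₁ g + b₂ * f₂ g = (chiT ρbar B₀ (localGaloisToGlobal p g) - 1) * n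
  hbeta : AllowedAt p F ζp (fun g : Gp => betaT ρbar B₀ (localGaloisToGlobal p g))

variable {F : IntermediateField ℚ_[p] (PadicAlgCl p)} {ζp : PadicAlgCl p}
variable {ρbar B₀ p}

/-! ### Consequences of the cocycle condition -/

section Cocycle

variable (D : ZData ρbar B₀ p F ζp)
  {c : (PadicAlgCl p ≃ₐ[ℚ_[p]] PadicAlgCl p) → (resAd ρbar p)}
include D

omit D in
theorem cocycle_apply_mul (hc : c ∈ LC.Z₁ (lvP p) (resAd ρbar p)) (g h : Gp) :
    c (g * h) = (resAd ρbar p).ρ g (c h) + c g :=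
  (mem_cocycles₁_iff c).mp hc.1 g h

theorem HcoR_mul (hc : c ∈ LC.Z₁ (lvP p) (resAd ρbar p)) (hb : ∀ g, c g ∈ borBR ρbar B₀ p)
    (g h : Gp) : HcoR ρbar B₀ p (c (g * h)) = HcoR ρbar B₀ p (c g) + HcoR ρbar B₀ p (c h) := by
  rw [cocycle_apply_mul hc, map_add, add_comm]
  congr 1
  exact Hco_ρ (D.hup g) (hb h)

theorem EcoR_mul (hc : c ∈ LC.Z₁ (lvP p) (resAd ρbar p)) (hb : ∀ g, c g ∈ borBR ρbar B₀ p)
    (g h : Gp) : EcoR ρbar B₀ p (c (g * h)) = EcoR ρbar B₀ p (c g)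
      + (chiT ρbar B₀ (localGaloisToGlobal p g) * EcoR ρbar B₀ p (c h)
        + betaT ρbar B₀ (localGaloisToGlobal p g) * HcoR ρbar B₀ p (c h)) := by
  rw [cocycle_apply_mul hc, map_add, add_comm]
  congr 1
  exact Eco_ρ (D.hup g) (hb h)

/-- The `H`-coordinate of a Borel-valued cocycle, unramified on inertia, is an unramified
additive character. -/
theorem HcoR_comp_mem_urW (hc : c ∈ LC.Z₁ (lvP p) (resAd ρbar p))
    (hb : ∀ g, c g ∈ borBR ρbar B₀ p)
    (hI : ∀ t : Gp, localGaloisToGlobal p t ∈ (padicPlace p).inertiaSubgroupIn ℚ →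
      HcoR ρbar B₀ p (c t) = 0) :
    (fun g => HcoR ρbar B₀ p (c g)) ∈ urW k p :=
  ⟨HcoR_mul D hc hb, hc.2.comp (HcoR ρbar B₀ p), hI⟩

/-- The `E`-coordinate is additive on `G_F`. -/
theorem EcoR_mul_of_mem (hc : c ∈ LC.Z₁ (lvP p) (resAd ρbar p))
    (hb : ∀ g, c g ∈ borBR ρbar B₀ p)
    (hI : ∀ t : Gp, localGaloisToGlobal p t ∈ (padicPlace p).inertiaSubgroupIn ℚ →
      HcoR ρbar B₀ p (c t) = 0)
    (g : Gp) (hg : g ∈ F.fixingSubgroup) (h : Gp) (hh : h ∈ F.fixingSubgroup) :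
    EcoR ρbar B₀ p (c (g * h)) = EcoR ρbar B₀ p (c g) + EcoR ρbar B₀ p (c h) := by
  rw [EcoR_mul D hc hb, D.hχF g hg, one_mul,
    D.hkill _ (HcoR_comp_mem_urW D hc hb hI) h hh, mul_zero, add_zero]

end Cocycle

/-! ### The space `Z` -/

section Space

variable (D : ZData ρbar B₀ p F ζp)

/-- **The space `Z`**: Borel-valued LC cocycles whose `H`-coordinate is unramified and whose
`E`-coordinate is allowed over `F`. -/
noncomputable def flatZ : Submodule k ((PadicAlgCl p ≃ₐ[ℚ_[p]] PadicAlgCl p) → (resAd ρbar p)) where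
  carrier := {c | c ∈ LC.Z₁ (lvP p) (resAd ρbar p) ∧ (∀ g, c g ∈ borBR ρbar B₀ p) ∧
    (∀ t, localGaloisToGlobal p t ∈ (padicPlace p).inertiaSubgroupIn ℚ →
      HcoR ρbar B₀ p (c t) = 0) ∧
    AllowedAt p F ζp (fun g => EcoR ρbar B₀ p (c g))}
  add_mem' := by
    rintro c c' ⟨h1, h2, h3, h4⟩ ⟨h1', h2', h3', h4'⟩
    refine ⟨Submodule.add_mem _ h1 h1', fun g => Submodule.add_mem _ (h2 g) (h2' g),
      fun t ht => ?_, ?_⟩
    · rw [Pi.add_apply, map_add, h3 t ht, h3' t ht, add_zero]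
    · have e : (fun g => EcoR ρbar B₀ p ((c + c') g))
          = fun g => EcoR ρbar B₀ p (c g) + EcoR ρbar B₀ p (c' g) := by
        funext g
        rw [Pi.add_apply, map_add]
      rw [e]
      exact allowedAddOut p k F D.hF ζp D.hζp _ _ (EcoR_mul_of_mem D h1 h2 h3)
        (EcoR_mul_of_mem D h1' h2' h3') (h1.2.comp (EcoR ρbar B₀ p)) (h1'.2.comp (EcoR ρbar B₀ p))
        h4 h4'
  zero_mem' := by
    refine ⟨Submodule.zero_mem _, fun g => Submodule.zero_mem _, fun t _ => ?_, ?_⟩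
    · rw [Pi.zero_apply, map_zero]
    · have e : (fun g : (PadicAlgCl p ≃ₐ[ℚ_[p]] PadicAlgCl p) =>
          EcoR ρbar B₀ p ((0 : (PadicAlgCl p ≃ₐ[ℚ_[p]] PadicAlgCl p) → (resAd ρbar p)) g))
          = fun _ => (0 : k) := by
        funext g
        rw [Pi.zero_apply, map_zero]
      rw [e]
      exact allowedAt_zero p F ζp
  smul_mem' := by
    rintro a c ⟨h1, h2, h3, h4⟩
    refine ⟨Submodule.smul_mem _ a h1, fun g => Submodule.smul_mem _ a (h2 g), fun t ht => ?_, ?_⟩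
    · rw [Pi.smul_apply, map_smul, h3 t ht, smul_zero]
    · have e : (fun g => EcoR ρbar B₀ p ((a • c) g))
          = fun g => a • EcoR ρbar B₀ p (c g) := by
        funext g
        rw [Pi.smul_apply, map_smul]
      rw [e]
      exact AllowedAt.smul (ξ := fun g => EcoR ρbar B₀ p (c g)) h4 a

theorem mem_flatZ_iff {c : (PadicAlgCl p ≃ₐ[ℚ_[p]] PadicAlgCl p) → (resAd ρbar p)} :
    c ∈ flatZ D ↔ c ∈ LC.Z₁ (lvP p) (resAd ρbar p) ∧ (∀ g, c g ∈ borBR ρbar B₀ p) ∧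
      (∀ t, localGaloisToGlobal p t ∈ (padicPlace p).inertiaSubgroupIn ℚ →
        HcoR ρbar B₀ p (c t) = 0) ∧
      AllowedAt p F ζp (fun g => EcoR ρbar B₀ p (c g)) := Iff.rfl

theorem flatZ_le : flatZ D ≤ LC.Z₁ (lvP p) (resAd ρbar p) := fun _ hc => hc.1

/-- The `H`-coordinate map `Z → Hom_ur(G_p, k)`. -/
noncomputable def uMap : ↥(flatZ D) →ₗ[k] ↥(urW k p) where
  toFun z := ⟨fun g => HcoR ρbar B₀ p (z.1 g), HcoR_comp_mem_urW D z.2.1 z.2.2.1 z.2.2.2.1⟩
  map_add' z z' := by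
    apply Subtype.ext
    funext g
    show HcoR ρbar B₀ p ((z.1 + z'.1) g) = _
    rw [Pi.add_apply, map_add]
    rfl
  map_smul' a z := by
    apply Subtype.ext
    funext g
    show HcoR ρbar B₀ p ((a • z.1) g) = _
    rw [Pi.smul_apply, map_smul]
    rfl

theorem uMap_eq_zero_imp (z : ↥(flatZ D)) (hz : uMap D z = 0) (g : PadicAlgCl p ≃ₐ[ℚ_[p]] PadicAlgCl p) :
    z.1 g ∈ nilBR ρbar B₀ p := by
  have h0 : HcoR ρbar B₀ p (z.1 g) = 0 := congrFun (congrArg Subtype.val hz) g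
  exact mem_span_ordE_of_Hco_eq_zero ρbar B₀ (z.2.2.1 g) h0

end Space

/-! ### The count -/

section Count

variable (D : ZData ρbar B₀ p F ζp)

theorem eq_EcoR_smul_ER {x : (resAd ρbar p)} (hx : x ∈ nilBR ρbar B₀ p) :
    x = EcoR ρbar B₀ p x • ER ρbar B₀ p := by
  obtain ⟨t, rfl⟩ := Submodule.mem_span_singleton.mp hx
  rw [map_smul, smul_eq_mul]
  have : EcoR ρbar B₀ p (ER ρbar B₀ p) = 1 := Eco_ordE ρbar B₀
  rw [this, mul_one]

theorem HcoR_of_mem_nilBR {x : (resAd ρbar p)} (hx : x ∈ nilBR ρbar B₀ p) :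
    HcoR ρbar B₀ p x = 0 := by
  obtain ⟨t, rfl⟩ := Submodule.mem_span_singleton.mp hx
  rw [map_smul, smul_eq_mul]
  have : HcoR ρbar B₀ p (ER ρbar B₀ p) = 0 := Hco_ordE ρbar B₀
  rw [this, mul_zero]

include D in
theorem resAd_ρ_ER (g : PadicAlgCl p ≃ₐ[ℚ_[p]] PadicAlgCl p) :
    (resAd ρbar p).ρ g (ER ρbar B₀ p)
      = chiT ρbar B₀ (localGaloisToGlobal p g) • ER ρbar B₀ p :=
  ρ_ordE_of_upper (D.hup g)

include D in
theorem resAd_ρ_HR (g : PadicAlgCl p ≃ₐ[ℚ_[p]] PadicAlgCl p) :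
    (resAd ρbar p).ρ g (HR ρbar B₀ p)
      = HR ρbar B₀ p + betaT ρbar B₀ (localGaloisToGlobal p g) • ER ρbar B₀ p :=
  ρ_ordH_of_upper (D.hup g)

/-- The coboundaries of the nilpotent line inside `Z_N`. -/
noncomputable def cobK :
    Submodule k ↥(flatZ D ⊓ ZN (lvP p) (resAd ρbar p) (nilBR ρbar B₀ p)) where
  carrier := {z | ∃ n ∈ nilBR ρbar B₀ p, ∀ g, z.1 g = (resAd ρbar p).ρ g n - n}
  add_mem' := by
    rintro z z' ⟨n, hn, h⟩ ⟨n', hn', h'⟩
    refine ⟨n + n', Submodule.add_mem _ hn hn', fun g => ?_⟩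
    show (z.1 + z'.1) g = _
    rw [Pi.add_apply, h g, h' g, map_add]
    abel
  zero_mem' := ⟨0, Submodule.zero_mem _, fun g => by rw [map_zero, sub_zero]; rfl⟩
  smul_mem' := by
    rintro a z ⟨n, hn, h⟩
    refine ⟨a • n, Submodule.smul_mem _ a hn, fun g => ?_⟩
    show (a • z.1) g = _
    rw [Pi.smul_apply, h g, map_smul, smul_sub]

/-- **Pairwise dependence** of the `N`-valued members of `Z` modulo coboundaries (OF-4). -/
theorem pairwise_dep (z₁ z₂ : ↥(flatZ D ⊓ ZN (lvP p) (resAd ρbar p) (nilBR ρbar B₀ p))) :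
    ∃ b₁ b₂ : k, (b₁ ≠ 0 ∨ b₂ ≠ 0) ∧ b₁ • z₁ + b₂ • z₂ ∈ cobK D := by
  have hco : ∀ z : ↥(flatZ D ⊓ ZN (lvP p) (resAd ρbar p) (nilBR ρbar B₀ p)), ∀ g h,
      EcoR ρbar B₀ p (z.1 (g * h)) = EcoR ρbar B₀ p (z.1 g)
        + chiT ρbar B₀ (localGaloisToGlobal p g) * EcoR ρbar B₀ p (z.1 h) := by
    intro z g h
    rw [EcoR_mul D z.2.1.1 z.2.1.2.1, HcoR_of_mem_nilBR (z.2.2.2 h), mul_zero, add_zero]
  obtain ⟨b₁, b₂, hb, n, hn⟩ := D.hdep (fun g => EcoR ρbar B₀ p (z₁.1 g))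
    (fun g => EcoR ρbar B₀ p (z₂.1 g)) (hco z₁) (hco z₂)
    (z₁.2.1.1.2.comp (EcoR ρbar B₀ p)) (z₂.2.1.1.2.comp (EcoR ρbar B₀ p))
    z₁.2.1.2.2.2 z₂.2.1.2.2.2
  refine ⟨b₁, b₂, hb, n • ER ρbar B₀ p,
    Submodule.smul_mem _ n (Submodule.subset_span rfl), fun g => ?_⟩
  show (b₁ • z₁.1 + b₂ • z₂.1) g = _
  rw [Pi.add_apply, Pi.smul_apply, Pi.smul_apply, eq_EcoR_smul_ER (z₁.2.2.2 g),
    eq_EcoR_smul_ER (z₂.2.2.2 g), map_smul, resAd_ρ_ER D, smul_smul, smul_smul, smul_smul,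
    ← add_smul, ← sub_smul]
  congr 1
  rw [hn g]
  ring

/-- The coboundary of `H` lies in `Z`. -/
theorem dH_mem_flatZ :
    (fun g => (resAd ρbar p).ρ g (HR ρbar B₀ p) - HR ρbar B₀ p) ∈ flatZ D := by
  have hform : ∀ g, (resAd ρbar p).ρ g (HR ρbar B₀ p) - HR ρbar B₀ p
      = betaT ρbar B₀ (localGaloisToGlobal p g) • ER ρbar B₀ p := by
    intro g
    rw [resAd_ρ_HR D, add_sub_cancel_left]
  refine ⟨?_, fun g => ?_, fun t _ => ?_, ?_⟩
  · have hsm : IsSmooth (lvP p) (resAd ρbar p) := isSmooth_res_ad0 ρbar (localGaloisToGlobal p)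
    have := LC.B₁_le_Z₁ hsm ⟨HR ρbar B₀ p, rfl⟩
    have e : (fun g => (resAd ρbar p).ρ g (HR ρbar B₀ p) - HR ρbar B₀ p)
        = (d₀₁ (resAd ρbar p)).hom (HR ρbar B₀ p) := by
      funext g
      rw [d₀₁_hom_apply]
    rw [e]
    exact this
  · show (resAd ρbar p).ρ g (HR ρbar B₀ p) - HR ρbar B₀ p ∈ _
    rw [hform]
    exact Submodule.smul_mem _ _ (ordE_mem_borB ρbar B₀)
  · show HcoR ρbar B₀ p ((resAd ρbar p).ρ t (HR ρbar B₀ p) - HR ρbar B₀ p) = 0
    rw [hform, map_smul, smul_eq_mul]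
    have : HcoR ρbar B₀ p (ER ρbar B₀ p) = 0 := Hco_ordE ρbar B₀
    rw [this, mul_zero]
  · have e : (fun g => EcoR ρbar B₀ p ((resAd ρbar p).ρ g (HR ρbar B₀ p) - HR ρbar B₀ p))
        = fun g => betaT ρbar B₀ (localGaloisToGlobal p g) := by
      funext g
      rw [hform, map_smul, smul_eq_mul]
      have : EcoR ρbar B₀ p (ER ρbar B₀ p) = 1 := Eco_ordE ρbar B₀
      rw [this, mul_one]
    rw [e]
    exact D.hbeta

/-- **The count**: the image of `Z` in `H¹_LC(G_p, ad⁰ ρbar)` has dimension `≤ h⁰ + 1`. -/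
theorem finrank_range_classOf_flatZ_le :
    Module.Finite k (LinearMap.range (classOf (lvP p) (resAd ρbar p) (flatZ D) (flatZ_le D))) ∧
      finrank k (LinearMap.range (classOf (lvP p) (resAd ρbar p) (flatZ D) (flatZ_le D)))
        ≤ finrank k (resAd ρbar p).ρ.invariants + 1 := by
  obtain ⟨hXfin, hX⟩ := finrank_urW_le k p
  obtain ⟨hYfin, hY⟩ := finrank_quotient_le_one_of_pairwise (cobK D) (pairwise_dep D)
  have hHN : HR ρbar B₀ p ∉ nilBR ρbar B₀ p := ordH_notMem_span_ordE ρbar B₀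
  refine finrank_range_classOf_le (lvP p) (resAd ρbar p) (nilBR ρbar B₀ p) hHN (flatZ D)
    (flatZ_le D) hX (uMap D) (uMap_eq_zero_imp D) hY (cobK D).mkQ
    (fun z hz => (Submodule.Quotient.mk_eq_zero _).mp hz) (dH_mem_flatZ D) (fun g => ?_)
  rw [resAd_ρ_HR D, add_sub_cancel_left]
  exact Submodule.smul_mem _ _ (Submodule.subset_span rfl)

end Count

end Fermat.Agent.TW.LocFlat.Ord
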