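/-
S56 / Program G, LOC-flat ORD case (ORD-MAIN, owner helper19), cut (B) [helper23]:
the field `hkill` of `ZData`.  Every unramified additive LC character `u : G_p → k` (`k` of
characteristic `p`) dies on `G_F` as soon as `F` kills the unramified LC characters of exponent
dividing `p * N` (the second clause of `OrdFieldOut`).
-/
import Mathlib
import Fermat.Agent.TW.LocFlat.Ord.Space
import Fermat.Agent.TW.Bridge.LocalInertia

set_option autoImplicit false
set_option linter.unusedSectionVars false
set_option linter.style.haveILetI false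

namespace Fermat.Agent.TW.LocFlat.Ord

open Fermat.Agent.CFT Fermat.Agent.S55 Fermat.Agent.TW.LocFlat

variable {k : Type} [Field k] (p : ℕ) [hp : Fact p.Prime]

local notation "Ωp" => PadicAlgCl p
local notation "Gp" => (PadicAlgCl p ≃ₐ[ℚ_[p]] PadicAlgCl p)

/-- An additive function `G_p → k` as a homomorphism into `Multiplicative k`. -/
def urKillHom (u : Gp → k) (hu : ∀ g h : Gp, u (g * h) = u g + u h) :
    Gp →* Multiplicative k where
  toFun g := Multiplicative.ofAdd (u g)
  map_one' := by
    have h := hu 1 1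
    rw [mul_one] at h
    have h0 : u 1 = 0 := by
      have h' : u 1 + u 1 = u 1 + 0 := by rw [add_zero]; exact h.symm
      exact add_left_cancel h'
    rw [h0]
    rfl
  map_mul' g h := by
    rw [hu g h]
    rfl

theorem urKillHom_apply (u : Gp → k) (hu : ∀ g h : Gp, u (g * h) = u g + u h) (g : Gp) :
    urKillHom p u hu g = Multiplicative.ofAdd (u g) := rfl

/-- **`ZData.hkill`**: the unramified additive LC characters vanish on `G_F`. -/
theorem urW_eq_zero_on_fixingSubgroup [CharP k p] {N : ℕ} (F : IntermediateField ℚ_[p] Ωp)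
    (hK : ∀ (A : Type) [CommGroup A] (χ : Gp →* A), (∀ g, χ g ^ (p * N) = 1) →
      (levelOf (localGaloisToGlobal p)).IsLC₁ χ →
      (∀ t : Gp, (∀ y : Ωp, ‖y‖ ≤ 1 → ‖t y - y‖ < 1) → χ t = 1) →
      ∀ σ ∈ F.fixingSubgroup, χ σ = 1) :
    ∀ u ∈ urW k p, ∀ σ ∈ F.fixingSubgroup, u σ = 0 := by
  rintro u ⟨hadd, hLC, hI⟩ σ hσ
  have h1 := hK (Multiplicative k) (urKillHom p u hadd) ?_ ?_ ?_ σ hσ
  · rw [urKillHom_apply] at h1
    exact Multiplicative.ofAdd.injective h1
  · intro g
    rw [urKillHom_apply, ← ofAdd_nsmul, ← Nat.cast_smul_eq_nsmul k, Nat.cast_mul,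
      CharP.cast_eq_zero k p, zero_mul, zero_smul]
    rfl
  · exact hLC.comp Multiplicative.ofAdd
  · intro t ht
    rw [urKillHom_apply,
      hI t ((Fermat.Agent.TW.Bridge.LocalInertia.localGaloisToGlobal_mem_inertia_iff t).2 ht)]
    rfl

end Fermat.Agent.TW.LocFlat.Ord
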