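/-
S56 / Program G, LOC-flat ORD case (ORD-MAIN, helper19), file 5: THE OUTPUT.

`ordBranchOut : OrdBranchOut 𝒪 p` (helper25's contract, `TW/LocFlat/Main.lean`): for a flat
deformation condition with cyclotomic determinant and a residual representation with a `G_p`-stable
line, `dim L_p ≤ h⁰(G_p, ad⁰ ρbar) + 1`; from the four contracts `A5FieldOut`, `OrdFieldOut`,
`OrdCountOut`, `TriFlatOut`.
-/
import Mathlib
import Fermat.Agent.TW.LocFlat.Ord.Rep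
import Fermat.Agent.TW.LocFlat.Ord.BetaAllowed
import Fermat.Agent.TW.LocFlat.Ord.UrKill
import Fermat.Agent.TW.LocFlat.Ord.ChiKill
import Fermat.Agent.TW.LocFlat.Ord.Dep
import Fermat.Agent.TW.LocFlat.Main
import Fermat.Agent.TW.Ord.Out

set_option autoImplicit false
set_option linter.unusedSectionVars false
set_option linter.style.haveILetI false

namespace Fermat.Agent.TW.LocFlat.Ord

open Matrix Module groupCohomology IsLocalRing ExtCitation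
open Fermat.Agent.TW.Ord Fermat.Agent.TW.Sel Fermat.Agent.S53 Fermat.Agent.TW.Ad0
open Fermat.Agent.CFT Fermat.Agent.S55 Fermat.Agent.TW.LocFlat Fermat.Agent.TW.LocFlat.OrdCount
open Fermat.Agent.TW.LocOrd Fermat.Agent.TW.Contracts Fermat.Agent.TW.LocalSpan

local notation "M2" => Matrix (Fin 2) (Fin 2)
local notation "Qb" => AlgebraicClosure ℚ
local notation "GQ" => (AlgebraicClosure ℚ ≃ₐ[ℚ] AlgebraicClosure ℚ)

variable {𝒪 : Type} [CommRing 𝒪] [IsLocalRing 𝒪]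

local notation "kk" => ResidueField 𝒪

set_option maxHeartbeats 4000000 in
/-- **LOC-flat, ORD case (existence form).** -/
theorem locOrdFlat {p : ℕ} [hp : Fact p.Prime] (hp2 : p ≠ 2) [CharP kk p] [Finite kk]
    (hA5 : A5FieldOut p) (hF : OrdFieldOut p) (hC : OrdCountOut p kk) (hTri : TriFlatOut p kk)
    (ρbar : ResidualGaloisRep kk) (𝒟 : Cond 𝒪) (T : Finset Nat.Primes)
    (h𝒟 : letI : Algebra 𝒪 (DualNumber kk) := dualNumberAlgebra 𝒪
      ∀ ρ : GaloisRepAdic (DualNumber kk), 𝒟 ρ → ρ.DetIsCyclotomic p ∧ ρ.IsFlatAt p)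
    (hline : ∃ ℓ : Submodule kk ρbar.V, Module.finrank kk ℓ = 1 ∧
      ∀ σ : PadicAlgCl p ≃ₐ[ℚ_[p]] PadicAlgCl p, ∀ v ∈ ℓ,
        ρbar.ρ (localGaloisToGlobal p σ) v ∈ ℓ) :
    ∃ Lp : Submodule kk (LC.H1 (levelOf (localGaloisToGlobal p))
        (Rep.res (localGaloisToGlobal p) (ad0Rep ρbar))),
      (∀ x ∈ tanClasses ρbar 𝒟 T,
        lcResH1 (ad0Rep ρbar) (levelCompat_globalLevel (localGaloisToGlobal p) T) x ∈ Lp) ∧
      Module.Finite kk Lp ∧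
      finrank kk Lp
        ≤ finrank kk (Rep.res (localGaloisToGlobal p) (ad0Rep ρbar)).ρ.invariants + 1 := by
  letI : Algebra 𝒪 (DualNumber kk) := dualNumberAlgebra 𝒪
  have hpp : p.Prime := hp.out
  by_cases hne : (tanClasses ρbar 𝒟 T).Nonempty
  · obtain ⟨x₀, ρ, hρ, r, hr, L, hL, -, -⟩ := hne
    obtain ⟨hdet, hflat⟩ := h𝒟 ρ hρ
    have hr' : ρ.IsEquiv r.toAdic := ⟨(Classical.choice hr).symm⟩
    have hdet' : r.toAdic.DetIsCyclotomic p := detIsCyclotomic_of_isEquiv hr' hdet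
    have hflat' : r.toAdic.IsFlatAt p := isFlatAt_of_isEquiv hr' hflat
    have hred : ∀ σ, redHom r.toHom σ = stdMat ρbar σ := by
      intro σ
      rw [← hL, L.red]
    obtain ⟨B₀, hS⟩ := exists_flatShape hTri r hred hflat' hdet' hline
    obtain ⟨σ₀, hσ₀, ha⟩ := Fermat.Agent.TW.Ord.exists_inertia_sq hp2
    have h2 : (2 : kk) ≠ 0 := by
      intro h
      have h1 : ((2 : ℕ) : kk) = 0 := by exact_mod_cast h
      rw [CharP.cast_eq_zero_iff kk p] at h1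
      exact hp2 ((Nat.prime_dvd_prime_iff_eq hpp Nat.prime_two).1 h1)
    have ha1 : ((2 : ℕ) : kk) ≠ 1 := by
      intro h
      have h1 : (1 : kk) = 0 := by
        have h3 : (2 : kk) = 1 := by exact_mod_cast h
        linear_combination h3
      exact one_ne_zero h1
    have hN : 0 < Nat.card kk - 1 := by
      have := Finite.one_lt_card (α := kk)
      omega
    obtain ⟨F, hFord, hK⟩ := hF (Nat.card kk - 1) hN
    haveI : NeZero (p : PadicAlgCl p) := ⟨Nat.cast_ne_zero.2 hpp.ne_zero⟩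
    obtain ⟨ζp, hζp⟩ := HasEnoughRootsOfUnity.exists_primitiveRoot (PadicAlgCl p) p
    have hχF := chiT_eq_one_on_fixingSubgroup ρbar B₀ hS r hred hdet' F hFord hK
    have D : ZData ρbar B₀ p F ζp :=
      { hF := hFord
        hζp := hζp
        hup := fun g => hS.1 _ (localGaloisToGlobal_mem_decompositionSubgroup p g)
        hχF := hχF
        hkill := urW_eq_zero_on_fixingSubgroup p F hK
        hdep := hdep_of_ordCountOut hp2 hC ρbar B₀ hS F hFord ζp hζp hχF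
        hbeta := allowedAt_betaT p hA5 F ζp hζp (hFord.zeta_mem ζp hζp.pow_eq_one) ρbar B₀ r hred
          hflat' hdet' }
    obtain ⟨hfin, hle⟩ := finrank_range_classOf_flatZ_le D
    exact ⟨LinearMap.range (classOf (lvP p) (resAd ρbar p) (flatZ D) (flatZ_le D)),
      fun x hx => lcResH1_mem_range_classOf hA5 hTri h2 D hS σ₀ hσ₀ 2 ha ha1 𝒟 T h𝒟 x hx,
      hfin, hle⟩
  · refine ⟨⊥, fun x hx => (hne ⟨x, hx⟩).elim, Module.Finite.bot kk _, ?_⟩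
    rw [finrank_bot]
    exact Nat.zero_le _

/-- The same in the vocabulary `primeLocalToGlobal v`, `v : Nat.Primes` (definitionally equal). -/
theorem locOrdFlat_prime (v : Nat.Primes) (hv2 : (v : ℕ) ≠ 2) [CharP kk (v : ℕ)] [Finite kk]
    (hA5 : haveI : Fact (v : ℕ).Prime := ⟨v.2⟩; A5FieldOut (v : ℕ))
    (hF : haveI : Fact (v : ℕ).Prime := ⟨v.2⟩; OrdFieldOut (v : ℕ))
    (hC : haveI : Fact (v : ℕ).Prime := ⟨v.2⟩; OrdCountOut (v : ℕ) kk)
    (hTri : haveI : Fact (v : ℕ).Prime := ⟨v.2⟩; TriFlatOut (v : ℕ) kk)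
    (ρbar : ResidualGaloisRep kk) (𝒟 : Cond 𝒪) (T : Finset Nat.Primes)
    (h𝒟 : letI : Algebra 𝒪 (DualNumber kk) := dualNumberAlgebra 𝒪
      ∀ ρ : GaloisRepAdic (DualNumber kk), 𝒟 ρ →
        ρ.DetIsCyclotomic (v : ℕ) ∧ ρ.IsFlatAt (v : ℕ))
    (hline : haveI : Fact (v : ℕ).Prime := ⟨v.2⟩
      ∃ ℓ : Submodule kk ρbar.V, Module.finrank kk ℓ = 1 ∧
      ∀ σ : PadicAlgCl (v : ℕ) ≃ₐ[ℚ_[(v : ℕ)]] PadicAlgCl (v : ℕ), ∀ w ∈ ℓ,
        ρbar.ρ (localGaloisToGlobal (v : ℕ) σ) w ∈ ℓ) :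
    ∃ Lp : Submodule kk (H1v ρbar v),
      (∀ x ∈ tanClasses ρbar 𝒟 T, resV ρbar T v x ∈ Lp) ∧
      Module.Finite kk Lp ∧
      finrank kk Lp ≤ finrank kk (Rep.res (primeLocalToGlobal v) (ad0Rep ρbar)).ρ.invariants + 1 :=
  haveI : Fact (v : ℕ).Prime := ⟨v.2⟩
  locOrdFlat hv2 hA5 hF hC hTri ρbar 𝒟 T h𝒟 hline

/-- **LOC-flat, ORD case, in the shared vocabulary** at `v : Nat.Primes`. -/
theorem locBound_flat_ord_prime (v : Nat.Primes) (hv2 : (v : ℕ) ≠ 2) [CharP kk (v : ℕ)] [Finite kk]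
    (hA5 : haveI : Fact (v : ℕ).Prime := ⟨v.2⟩; A5FieldOut (v : ℕ))
    (hF : haveI : Fact (v : ℕ).Prime := ⟨v.2⟩; OrdFieldOut (v : ℕ))
    (hC : haveI : Fact (v : ℕ).Prime := ⟨v.2⟩; OrdCountOut (v : ℕ) kk)
    (hTri : haveI : Fact (v : ℕ).Prime := ⟨v.2⟩; TriFlatOut (v : ℕ) kk)
    (ρbar : ResidualGaloisRep kk) (𝒟 : Cond 𝒪) (T : Finset Nat.Primes)
    (h𝒟 : letI : Algebra 𝒪 (DualNumber kk) := dualNumberAlgebra 𝒪
      ∀ ρ : GaloisRepAdic (DualNumber kk), 𝒟 ρ →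
        ρ.DetIsCyclotomic (v : ℕ) ∧ ρ.IsFlatAt (v : ℕ))
    (hline : haveI : Fact (v : ℕ).Prime := ⟨v.2⟩
      ∃ ℓ : Submodule kk ρbar.V, Module.finrank kk ℓ = 1 ∧
      ∀ σ : PadicAlgCl (v : ℕ) ≃ₐ[ℚ_[(v : ℕ)]] PadicAlgCl (v : ℕ), ∀ w ∈ ℓ,
        ρbar.ρ (localGaloisToGlobal (v : ℕ) σ) w ∈ ℓ) :
    LocBound ρbar 𝒟 T v 1 := by
  obtain ⟨Lp, hmem, hfin, hle⟩ := locOrdFlat_prime v hv2 hA5 hF hC hTri ρbar 𝒟 T h𝒟 hline
  have hspan : localTanSpan ρbar 𝒟 T v ≤ Lp := by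
    apply Submodule.span_le.2
    rintro _ ⟨x, hx, rfl⟩
    exact hmem x hx
  haveI := hfin
  have hfd : FiniteDimensional kk (localTanSpan ρbar 𝒟 T v) :=
    Submodule.finiteDimensional_of_le hspan
  exact ⟨hfd, (Submodule.finrank_mono hspan).trans hle⟩

/-- **ORD-MAIN**: helper25's contract `OrdBranchOut 𝒪 p`, from the four contracts. -/
theorem ordBranchOut_of_contracts {p : ℕ} [hp : Fact p.Prime] (hp2 : p ≠ 2) [CharP kk p]
    [Finite kk] (hA5 : A5FieldOut p) (hF : OrdFieldOut p) (hC : OrdCountOut p kk)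
    (hTri : TriFlatOut p kk) : OrdBranchOut 𝒪 p := by
  intro ρbar 𝒟 h𝒟 T hline
  exact locBound_flat_ord_prime (𝒪 := 𝒪) ⟨p, hp.out⟩ hp2 hA5 hF hC hTri ρbar 𝒟 T h𝒟 hline

end Fermat.Agent.TW.LocFlat.Ord
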