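/-
S56 / Program G, LOC-flat ORD case (ORD-MAIN, helper19), file 6: the contract-free output.

`ordBranchOut_all` is literally the input `hOrd` of helper25's `locFlatOut_of_ordBranch`
(`TW/LocFlat/Out.lean`) and the first component of `FlatBranchesOut`:
the four contracts `A5FieldOut` (helper25), `OrdFieldOut` (helper16), `OrdCountOut` (helper22),
`TriFlatOut` (helper5) are discharged by their owners' theorems.
-/
import Mathlib
import Fermat.Agent.TW.LocFlat.Ord.Main
import Fermat.Agent.TW.LocFlat.A5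
import Fermat.Agent.TW.OrdField.Out
import Fermat.Agent.TW.OrdCount.Out
import Fermat.Agent.TW.Hopf.TriFlatOut

set_option autoImplicit false
set_option linter.unusedSectionVars false

namespace Fermat.Agent.TW.LocFlat.Ord

open IsLocalRing Fermat.Agent.TW.LocFlat

/-- **ORD-MAIN, hypothesis-free**: helper25's contract `OrdBranchOut 𝒪 p` for odd `p` and a finite
residue field of characteristic `p`. -/
theorem ordBranchOut {𝒪 : Type} [CommRing 𝒪] [IsLocalRing 𝒪] {p : ℕ} [hp : Fact p.Prime]
    (hp2 : p ≠ 2) [CharP (ResidueField 𝒪) p] [Finite (ResidueField 𝒪)] : OrdBranchOut 𝒪 p := by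
  haveI : Fintype (ResidueField 𝒪) := Fintype.ofFinite _
  exact ordBranchOut_of_contracts hp2 (a5FieldOut p) (Fermat.Agent.TW.OrdField.ordFieldOut p)
    (Fermat.Agent.TW.OrdCount.ordCountOut (p := p) (ResidueField 𝒪))
    (Fermat.Agent.TW.Hopf.FlatOrd.triFlatOut p hp2 (ResidueField 𝒪))

/-- The literal input of `locFlatOut_of_ordBranch` / first component of `FlatBranchesOut`. -/
theorem ordBranchOut_all :
    ∀ (𝒪 : Type) [CommRing 𝒪] [IsLocalRing 𝒪] (p : ℕ) [Fact p.Prime], p ≠ 2 →
      ∀ [CharP (ResidueField 𝒪) p] [Finite (ResidueField 𝒪)], OrdBranchOut 𝒪 p :=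
  fun _ _ _ _ _ hp2 _ _ => ordBranchOut hp2

end Fermat.Agent.TW.LocFlat.Ord
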