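/-
S56 / Program G, LOC-flat ORD case, ORD-MAIN helpers (helper11, for helper19): the flat shape in the
carrier of `ad0Rep ρbar`.

`E = ordE ρbar B₀ = B₀ E₁₂ B₀⁻¹`, `H' = ordH ρbar B₀ = B₀ diag(1,-1) B₀⁻¹` (helper19's `Ord/Inst`).
For `FlatShape ρbar p B₀` and `σ ∈ D_P` (`T σ = B₀⁻¹ ρbar(σ) B₀ = [[χ₁, b], [0, χ₂]]`):
* `flat_ρ_ordE` : `σ E = (χ₁/χ₂)(σ) E`;
* `flat_ρ_ordH` : `σ H' - H' = (-2 b/χ₂)(σ) E`;
* `adCochain_flat_form` : for every flat lift, `L.adCochain σ - (σ m - m) = f σ • E + u σ • H'` on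
  `D_P`, `u = 0` on `I_P` (the `ad0Rep` form of `flat_form_fixed_basis`).
-/
import Mathlib
import Fermat.Agent.TW.LocFlat.Ord.Shape

set_option autoImplicit false
set_option linter.unusedSectionVars false
set_option linter.unnecessarySeqFocus false

namespace Fermat.Agent.TW.LocFlat.Ord

open Matrix Fermat.Agent.TW.Sel Fermat.Agent.TW.Ord Fermat.Agent.S53 Fermat.Agent.S55
  Fermat.Agent.TW.LocFlat Fermat.Agent.TW.Ad0

local notation "M2" => Matrix (Fin 2) (Fin 2)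
local notation "Qb" => AlgebraicClosure ℚ
local notation "GQ" => (AlgebraicClosure ℚ ≃ₐ[ℚ] AlgebraicClosure ℚ)

section MatrixLemmas

variable {K : Type*} [Field K] (B₀ : (M2 K)ˣ)

/-- Conjugation of `diag(1,-1)` by an upper-triangularisable matrix (no condition on `T₁₁²`). -/
theorem conj_cj_dg_upper {M M' : M2 K} (hMM' : M * M' = 1)
    (h10 : (((B₀⁻¹ : (M2 K)ˣ) : M2 K) * M * (B₀ : M2 K)) 1 0 = 0)
    (h11 : (((B₀⁻¹ : (M2 K)ˣ) : M2 K) * M * (B₀ : M2 K)) 1 1 ≠ 0) :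
    M * cj B₀ dg * M' - cj B₀ dg
      = cj B₀ (e12 (-2 * (((B₀⁻¹ : (M2 K)ˣ) : M2 K) * M * (B₀ : M2 K)) 0 1
          / (((B₀⁻¹ : (M2 K)ˣ) : M2 K) * M * (B₀ : M2 K)) 1 1)) := by
  have h := conj_cj_of_comm B₀ hMM' (X := dg)
    (Y := dg + e12 (-2 * (((B₀⁻¹ : (M2 K)ˣ) : M2 K) * M * (B₀ : M2 K)) 0 1
          / (((B₀⁻¹ : (M2 K)ˣ) : M2 K) * M * (B₀ : M2 K)) 1 1)) ?_
  · rw [h, cj_add]; abel
  · generalize ((B₀⁻¹ : (M2 K)ˣ) : M2 K) * M * (B₀ : M2 K) = T at h10 h11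
    ext i j
    fin_cases i <;> fin_cases j <;>
      simp [dg, e12, Matrix.mul_apply, Fin.sum_univ_two, h10]
    field_simp
    ring

/-- Diagonal entries of an invertible upper triangular conjugate are non-zero. -/
theorem conj_one_one_ne_zero {M M' : M2 K} (hMM' : M * M' = 1)
    (h10 : (((B₀⁻¹ : (M2 K)ˣ) : M2 K) * M * (B₀ : M2 K)) 1 0 = 0) :
    (((B₀⁻¹ : (M2 K)ˣ) : M2 K) * M * (B₀ : M2 K)) 1 1 ≠ 0 := by
  intro h11
  have hU' : ((B₀⁻¹ : (M2 K)ˣ) : M2 K) * (B₀ : M2 K) = 1 := Units.inv_mul B₀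
  have hU : (B₀ : M2 K) * ((B₀⁻¹ : (M2 K)ˣ) : M2 K) = 1 := Units.mul_inv B₀
  have hprod : (((B₀⁻¹ : (M2 K)ˣ) : M2 K) * M * (B₀ : M2 K))
      * (((B₀⁻¹ : (M2 K)ˣ) : M2 K) * M' * (B₀ : M2 K)) = 1 := by
    calc ((B₀⁻¹ : (M2 K)ˣ) : M2 K) * M * (B₀ : M2 K)
          * (((B₀⁻¹ : (M2 K)ˣ) : M2 K) * M' * (B₀ : M2 K))
        = ((B₀⁻¹ : (M2 K)ˣ) : M2 K) * M * ((B₀ : M2 K) * ((B₀⁻¹ : (M2 K)ˣ) : M2 K)) * M'
            * (B₀ : M2 K) := by simp only [mul_assoc]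
      _ = ((B₀⁻¹ : (M2 K)ˣ) : M2 K) * (M * M') * (B₀ : M2 K) := by
          rw [hU, mul_one]; simp only [mul_assoc]
      _ = 1 := by rw [hMM', mul_one, hU']
  have h := congrFun (congrFun hprod 1) 1
  rw [Matrix.mul_apply, Fin.sum_univ_two, h10, h11, zero_mul, zero_mul, add_zero,
    Matrix.one_apply_eq] at h
  exact zero_ne_one h

end MatrixLemmas

variable {k : Type} [Field k] {ρbar : ResidualGaloisRep k} {p : ℕ} [hp : Fact p.Prime]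
  {B₀ : (M2 k)ˣ}

/-- `σ E = (χ₁/χ₂)(σ) E` on the decomposition group. -/
theorem flat_ρ_ordE (hS : FlatShape ρbar p B₀) {σ : GQ}
    (hσ : σ ∈ (padicPlace p).decompositionSubgroup ℚ) :
    (ad0Rep ρbar).ρ σ (ordE ρbar B₀)
      = ((((B₀⁻¹ : (M2 k)ˣ) : M2 k) * stdMat ρbar σ * (B₀ : M2 k)) 0 0
          / (((B₀⁻¹ : (M2 k)ˣ) : M2 k) * stdMat ρbar σ * (B₀ : M2 k)) 1 1) • ordE ρbar B₀ := by
  have h10 := hS.1 σ hσ
  have hMM' : stdMat ρbar σ * stdMat ρbar σ⁻¹ = 1 := (stdMat ρbar).apply_mul_inv σ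
  have h11 := conj_one_one_ne_zero B₀ hMM' h10
  apply ad0_ext
  rw [ordE, ad0ToEnd_ρ_matAd, map_smul, ad0ToEnd_matAd, ← map_smul,
    conj_cj_e12 B₀ hMM' _ 1 h10 (div_mul_cancel₀ _ h11).symm, ← e12_smul, cj_smul]

/-- `σ H' - H' = (-2 b/χ₂)(σ) E` on the decomposition group. -/
theorem flat_ρ_ordH (hS : FlatShape ρbar p B₀) {σ : GQ}
    (hσ : σ ∈ (padicPlace p).decompositionSubgroup ℚ) :
    (ad0Rep ρbar).ρ σ (ordH ρbar B₀) - ordH ρbar B₀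
      = (-2 * (((B₀⁻¹ : (M2 k)ˣ) : M2 k) * stdMat ρbar σ * (B₀ : M2 k)) 0 1
          / (((B₀⁻¹ : (M2 k)ˣ) : M2 k) * stdMat ρbar σ * (B₀ : M2 k)) 1 1) • ordE ρbar B₀ := by
  have h10 := hS.1 σ hσ
  have hMM' : stdMat ρbar σ * stdMat ρbar σ⁻¹ = 1 := (stdMat ρbar).apply_mul_inv σ
  have h11 := conj_one_one_ne_zero B₀ hMM' h10
  apply ad0_ext
  rw [map_sub, ordH, ad0ToEnd_ρ_matAd, map_smul, ordE, ad0ToEnd_matAd, ad0ToEnd_matAd, ← map_sub,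
    ← map_smul, conj_cj_dg_upper B₀ hMM' h10 h11, ← cj_smul, e12_smul, mul_one]

/-- **Flat tangent cocycles in `ad0Rep ρbar`**: for a fixed basis of flat shape, every flat lift has
`L.adCochain σ - (σ m - m) = f σ • E + u σ • H'` on `D_P` with `u = 0` on `I_P`. -/
theorem adCochain_flat_form (hTri : TriFlatOut p k) (h2 : (2 : k) ≠ 0)
    (hS : FlatShape ρbar p B₀) (σ₀ : GQ) (hσ₀ : σ₀ ∈ (padicPlace p).inertiaSubgroupIn ℚ) (a : ℕ)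
    (ha : ∀ μ : Qb, μ ^ p = 1 → σ₀ μ = μ ^ a) (ha1 : (a : k) ≠ 1)
    (L : TanLift (stdMat ρbar).toHom) (r : MatRep (DualNumber k)) (hL : L.R = r.toHom)
    (hflat : r.toAdic.IsFlatAt p) (hdet : r.toAdic.DetIsCyclotomic p) :
    ∃ (m : (ad0Rep ρbar)) (f u : GQ → k),
      (∀ σ ∈ (padicPlace p).decompositionSubgroup ℚ,
        L.adCochain σ - ((ad0Rep ρbar).ρ σ m - m) = f σ • ordE ρbar B₀ + u σ • ordH ρbar B₀) ∧
      ∀ σ ∈ (padicPlace p).inertiaSubgroupIn ℚ, u σ = 0 := by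
  have hred : ∀ σ, redHom r.toHom σ = stdMat ρbar σ := by
    intro σ
    rw [← hL, L.red]
  obtain ⟨m₀, f, u, hm₀, hform, hu⟩ :=
    flat_form_fixed_basis hTri h2 B₀ hS σ₀ hσ₀ a ha ha1 r hred hflat hdet
  set b := stdBasis ρbar with hb
  have hmem : Matrix.toLin b b (-m₀) ∈ sl ρbar := by
    rw [mem_sl_iff, trace_toLin, Matrix.trace_neg, hm₀, neg_zero]
  refine ⟨toAd0 ρbar ⟨Matrix.toLin b b (-m₀), hmem⟩, f, u, fun σ hσ => ?_, hu⟩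
  apply ad0_ext
  have h3 : ad0ToEnd ρbar (L.adCochain σ - ((ad0Rep ρbar).ρ σ
        (toAd0 ρbar ⟨Matrix.toLin b b (-m₀), hmem⟩) - toAd0 ρbar ⟨Matrix.toLin b b (-m₀), hmem⟩))
      = Matrix.toLin b b (tanCochain r.toHom σ
        - (m₀ - stdMat ρbar σ * m₀ * stdMat ρbar σ⁻¹)) := by
    rw [map_sub, map_sub, ad0ToEnd_ρ, ad0ToEnd_toAd0]
    show Matrix.toLin b b (tanCochain L.R σ)
      - (ρbar.ρ σ * Matrix.toLin b b (-m₀) * ρbar.ρ σ⁻¹ - Matrix.toLin b b (-m₀)) = _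
    rw [hL, map_sub, map_sub, toLin_conj, map_neg]
    simp only [mul_neg, neg_mul, sub_neg_eq_add]
    abel
  have he : cj B₀ (e12 (f σ)) = f σ • cj B₀ (e12 1) := by
    rw [← cj_smul, e12_smul, mul_one]
  rw [h3, hform σ hσ, add_sub_cancel_right, map_add, map_smul, map_smul, ordE, ordH,
    ad0ToEnd_matAd, ad0ToEnd_matAd, cj_add, cj_smul, he, map_add, map_smul, map_smul]

end Fermat.Agent.TW.LocFlat.Ord
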