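/-
S56 / Program G, LOC-flat ORD case (ORD-MAIN, helper19), file 4: every flat tangent class,
restricted to `G_p`, is the class of a member of `flatZ`.
-/
import Mathlib
import Fermat.Agent.TW.LocFlat.Ord.Space
import Fermat.Agent.TW.LocFlat.Ord.ShapeAd
import Fermat.Agent.TW.Sel.EquivInv

set_option autoImplicit false
set_option linter.unusedSectionVars false
set_option linter.style.haveILetI false

namespace Fermat.Agent.TW.LocFlat.Ord

open Matrix Module groupCohomology IsLocalRing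
open Fermat.Agent.TW.Ord Fermat.Agent.TW.Sel Fermat.Agent.S53 Fermat.Agent.TW.Ad0
open Fermat.Agent.CFT Fermat.Agent.S55 Fermat.Agent.TW.LocFlat Fermat.Agent.TW.LocFlat.OrdCount
open Fermat.Agent.TW.LocOrd Fermat.Agent.TW.Contracts

local notation "M2" => Matrix (Fin 2) (Fin 2)
local notation "Qb" => AlgebraicClosure ℚ
local notation "GQ" => (AlgebraicClosure ℚ ≃ₐ[ℚ] AlgebraicClosure ℚ)

section Triv

variable {k : Type} [Field k] (ρbar : ResidualGaloisRep k)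

/-- The adjoint action of an element on which `ρbar` is trivial is trivial. -/
theorem ad0Rep_ρ_eq_self_of_stdMat_eq_one {σ : GQ} (h : stdMat ρbar σ = 1) (m : (ad0Rep ρbar)) :
    (ad0Rep ρbar).ρ σ m = m := by
  have h1 : ρbar.ρ σ = 1 := by
    rw [← toLin_stdMat ρbar σ, h, Matrix.toLin_one]
    rfl
  have h2 : ρbar.ρ σ⁻¹ = 1 := by
    have := rho_inv_mul_rho ρbar σ
    rwa [h1, mul_one] at this
  apply ad0ToEnd_injective
  rw [ad0ToEnd_ρ, h1, h2, one_mul, mul_one]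

end Triv

variable {𝒪 : Type} [CommRing 𝒪] [IsLocalRing 𝒪]

local notation "kk" => ResidueField 𝒪

/-- **Every flat tangent class restricted to `G_p` has a representative in `Z`.** -/
theorem lcResH1_mem_range_classOf {p : ℕ} [hp : Fact p.Prime] [CharP kk p] [Finite kk]
    (hA5 : A5FieldOut p) (hTri : TriFlatOut p kk) (h2 : (2 : kk) ≠ 0)
    {ρbar : ResidualGaloisRep kk} {B₀ : (M2 kk)ˣ}
    {F : IntermediateField ℚ_[p] (PadicAlgCl p)} {ζp : PadicAlgCl p}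
    (D : ZData ρbar B₀ p F ζp) (hS : FlatShape ρbar p B₀)
    (σ₀ : GQ) (hσ₀ : σ₀ ∈ (padicPlace p).inertiaSubgroupIn ℚ) (a : ℕ)
    (ha : ∀ μ : Qb, μ ^ p = 1 → σ₀ μ = μ ^ a) (ha1 : (a : kk) ≠ 1)
    (𝒟 : Cond 𝒪) (T : Finset Nat.Primes)
    (h𝒟 : letI : Algebra 𝒪 (DualNumber kk) := dualNumberAlgebra 𝒪
      ∀ ρ : GaloisRepAdic (DualNumber kk), 𝒟 ρ → ρ.DetIsCyclotomic p ∧ ρ.IsFlatAt p)
    (x : LC.H1 (globalLevel T) (ad0Rep ρbar)) (hx : x ∈ tanClasses ρbar 𝒟 T) :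
    lcResH1 (ad0Rep ρbar) (levelCompat_globalLevel (localGaloisToGlobal p) T) x
      ∈ LinearMap.range (classOf (lvP p) (resAd ρbar p) (flatZ D) (flatZ_le D)) := by
  letI : Algebra 𝒪 (DualNumber kk) := dualNumberAlgebra 𝒪
  obtain ⟨ρ, hρ, r, hr, L, hL, hZ, rfl⟩ := hx
  obtain ⟨hdet, hflat⟩ := h𝒟 ρ hρ
  have hr' : ρ.IsEquiv r.toAdic := ⟨(Classical.choice hr).symm⟩
  have hdet' : r.toAdic.DetIsCyclotomic p := detIsCyclotomic_of_isEquiv hr' hdet
  have hflat' : r.toAdic.IsFlatAt p := isFlatAt_of_isEquiv hr' hflat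
  obtain ⟨m, f, u, hform, hu⟩ :=
    adCochain_flat_form hTri h2 hS σ₀ hσ₀ a ha ha1 L r hL hflat' hdet'
  set ι := localGaloisToGlobal p with hι
  have hsm : IsSmooth (lvP p) (resAd ρbar p) := isSmooth_res_ad0 ρbar ι
  have hdm : (d₀₁ (resAd ρbar p)).hom (show (resAd ρbar p) from m) ∈ LC.Z₁ (lvP p) (resAd ρbar p) :=
    LC.B₁_le_Z₁ hsm ⟨(show (resAd ρbar p) from m), rfl⟩
  set c := lcResZ₁ (ad0Rep ρbar) (levelCompat_globalLevel ι T) ⟨L.adCochain, hZ⟩ with hc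
  set z : ↥(LC.Z₁ (lvP p) (resAd ρbar p)) := c - ⟨_, hdm⟩ with hz
  have hzform : ∀ g, z.1 g = f (ι g) • ER ρbar B₀ p + u (ι g) • HR ρbar B₀ p := by
    intro g
    exact hform (ι g) (localGaloisToGlobal_mem_decompositionSubgroup p g)
  have hred : ∀ σ, redHom r.toHom σ = stdMat ρbar σ := by
    intro σ
    rw [← hL, L.red]
  have hzmem : z.1 ∈ flatZ D := by
    refine ⟨z.2, fun g => ?_, fun t ht => ?_, ?_⟩
    · rw [hzform g]
      exact smul_add_smul_mem_borB ρbar B₀ _ _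
    · rw [hzform t]
      have e1 : HcoR ρbar B₀ p (ER ρbar B₀ p) = 0 := Hco_ordE ρbar B₀
      have e2 : HcoR ρbar B₀ p (HR ρbar B₀ p) = 1 := Hco_ordH ρbar B₀
      rw [map_add, map_smul, map_smul, e1, e2, hu _ ht, smul_zero, zero_smul, add_zero]
    · refine allowedAt_of_vanish p hA5 F ζp D.hζp (D.hF.zeta_mem ζp D.hζp.pow_eq_one) r hflat'
        hdet' _ (fun σ hσ => ?_)
      have h1 : L.adCochain (ι σ) = 0 :=
        adCochain_eq_zero_of_apply_eq_one L (by rw [hL]; exact hσ)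
      have h3 : stdMat ρbar (ι σ) = 1 := by
        rw [← hred, redHom_apply]
        have : r.toHom (ι σ) = 1 := hσ
        rw [this, mfst_one]
      have h4 : z.1 σ = L.adCochain (ι σ) - ((ad0Rep ρbar).ρ (ι σ) m - m) := rfl
      rw [h4, h1, ad0Rep_ρ_eq_self_of_stdMat_eq_one ρbar h3, sub_self, sub_zero, map_zero]
  rw [mem_range_classOf_iff]
  refine ⟨z.1, hzmem, ?_⟩
  have : (⟨z.1, flatZ_le D hzmem⟩ : ↥(LC.Z₁ (lvP p) (resAd ρbar p))) = z := rfl
  rw [this, hz, lcResH1_mk, map_sub, sub_eq_self, LC.H1π_eq_zero_iff]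
  exact ⟨(show (resAd ρbar p) from m), rfl⟩

end Fermat.Agent.TW.LocFlat.Ord
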